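import Mathlib

set_option autoImplicit false

/-!
# The 5-congruence family: explicit forms

`E_{a,b} : y^2 = x^3 - 27 a x - 54 b` (so `c4 = a`, `c6 = b` up to scaling) and the family of curves
`E_{C4p a b t, C6p a b t}` with the same 5-torsion.  Obtained from Klein's icosahedral forms.
-/

namespace Fermat.Agent.S52

variable {R : Type*} [CommRing R]

/-- coefficient of `t^0` in `Dp` -/
def Dpc0 (_a _b : R) : R := 1
/-- coefficient of `t^2` in `Dp` -/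
def Dpc2 (a _b : R) : R := -66 * a
/-- coefficient of `t^3` in `Dp` -/
def Dpc3 (_a b : R) : R := -440 * b
/-- coefficient of `t^4` in `Dp` -/
def Dpc4 (a _b : R) : R := -1485 * a ^ 2
/-- coefficient of `t^5` in `Dp` -/
def Dpc5 (a b : R) : R := -3168 * a * b
/-- coefficient of `t^6` in `Dp` -/
def Dpc6 (a b : R) : R := 5940 * a ^ 3 - 10560 * b ^ 2
/-- coefficient of `t^7` in `Dp` -/
def Dpc7 (a b : R) : R := -4752 * a ^ 2 * b
/-- coefficient of `t^8` in `Dp` -/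
def Dpc8 (a b : R) : R := -66825 * a ^ 4 + 63360 * a * b ^ 2
/-- coefficient of `t^9` in `Dp` -/
def Dpc9 (a b : R) : R := -142560 * a ^ 3 * b + 140800 * b ^ 3
/-- coefficient of `t^10` in `Dp` -/
def Dpc10 (a b : R) : R := -133650 * a ^ 5 + 133056 * a ^ 2 * b ^ 2
/-- coefficient of `t^11` in `Dp` -/
def Dpc11 (a b : R) : R := -61560 * a ^ 4 * b + 61440 * a * b ^ 3
/-- coefficient of `t^12` in `Dp` -/
def Dpc12 (a b : R) : R := 91125 * a ^ 6 - 193536 * a ^ 3 * b ^ 2 + 102400 * b ^ 4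

/-- degree 12 form (dehomogenised) -/
def Dp (a b t : R) : R :=
  Dpc0 a b + Dpc2 a b * t ^ 2 + Dpc3 a b * t ^ 3 + Dpc4 a b * t ^ 4 + Dpc5 a b * t ^ 5 +
    Dpc6 a b * t ^ 6 + Dpc7 a b * t ^ 7 + Dpc8 a b * t ^ 8 + Dpc9 a b * t ^ 9 +
    Dpc10 a b * t ^ 10 + Dpc11 a b * t ^ 11 + Dpc12 a b * t ^ 12

/-- coefficient of `t^0` in `C4p` -/
def C4pc0 (a _b : R) : R := a
/-- coefficient of `t^1` in `C4p` -/
def C4pc1 (_a b : R) : R := 20 * b
/-- coefficient of `t^2` in `C4p` -/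
def C4pc2 (a _b : R) : R := 190 * a ^ 2
/-- coefficient of `t^3` in `C4p` -/
def C4pc3 (a b : R) : R := 1140 * a * b
/-- coefficient of `t^4` in `C4p` -/
def C4pc4 (a b : R) : R := -855 * a ^ 3 + 5700 * b ^ 2
/-- coefficient of `t^5` in `C4p` -/
def C4pc5 (a b : R) : R := 15504 * a ^ 2 * b
/-- coefficient of `t^6` in `C4p` -/
def C4pc6 (a b : R) : R := 102600 * a ^ 4 - 63840 * a * b ^ 2
/-- coefficient of `t^7` in `C4p` -/
def C4pc7 (a b : R) : R := 259920 * a ^ 3 * b - 182400 * b ^ 3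
/-- coefficient of `t^8` in `C4p` -/
def C4pc8 (a b : R) : R := -1000350 * a ^ 5 + 1126320 * a ^ 2 * b ^ 2
/-- coefficient of `t^9` in `C4p` -/
def C4pc9 (a b : R) : R := -7736040 * a ^ 4 * b + 7904000 * a * b ^ 3
/-- coefficient of `t^10` in `C4p` -/
def C4pc10 (a b : R) : R := -10003500 * a ^ 6 - 5619744 * a ^ 3 * b ^ 2 + 15808000 * b ^ 4
/-- coefficient of `t^11` in `C4p` -/
def C4pc11 (a b : R) : R := -54685800 * a ^ 5 * b + 54853760 * a ^ 2 * b ^ 3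
/-- coefficient of `t^12` in `C4p` -/
def C4pc12 (a b : R) : R := -45015750 * a ^ 7 + 7202520 * a ^ 4 * b ^ 2 + 37939200 * a * b ^ 4
/-- coefficient of `t^13` in `C4p` -/
def C4pc13 (a b : R) : R := -35089200 * a ^ 6 * b - 23201280 * a ^ 3 * b ^ 3 + 58368000 * b ^ 5
/-- coefficient of `t^14` in `C4p` -/
def C4pc14 (a b : R) : R := 207765000 * a ^ 8 - 495188640 * a ^ 5 * b ^ 2 + 287462400 * a ^ 2 * b ^ 4
/-- coefficient of `t^15` in `C4p` -/
def C4pc15 (a b : R) : R := 415530000 * a ^ 7 * b - 882458496 * a ^ 4 * b ^ 3 + 466944000 * a * b ^ 5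
/-- coefficient of `t^16` in `C4p` -/
def C4pc16 (a b : R) : R := -77911875 * a ^ 9 + 714711600 * a ^ 6 * b ^ 2 - 1220474880 * a ^ 3 * b ^ 4 + 583680000 * b ^ 6
/-- coefficient of `t^17` in `C4p` -/
def C4pc17 (a b : R) : R := 353200500 * a ^ 8 * b - 715080960 * a ^ 5 * b ^ 3 + 361881600 * a ^ 2 * b ^ 5
/-- coefficient of `t^18` in `C4p` -/
def C4pc18 (a b : R) : R := 779118750 * a ^ 10 - 2182917600 * a ^ 7 * b ^ 2 + 2026391040 * a ^ 4 * b ^ 4 - 622592000 * a * b ^ 6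
/-- coefficient of `t^19` in `C4p` -/
def C4pc19 (a b : R) : R := 694372500 * a ^ 9 * b - 2044414080 * a ^ 6 * b ^ 3 + 2005401600 * a ^ 3 * b ^ 5 - 655360000 * b ^ 7
/-- coefficient of `t^20` in `C4p` -/
def C4pc20 (a b : R) : R := 184528125 * a ^ 11 - 549301500 * a ^ 8 * b ^ 2 + 544997376 * a ^ 5 * b ^ 4 - 180224000 * a ^ 2 * b ^ 6

/-- degree 20 form (dehomogenised) -/
def C4p (a b t : R) : R :=
  C4pc0 a b + C4pc1 a b * t + C4pc2 a b * t ^ 2 + C4pc3 a b * t ^ 3 + C4pc4 a b * t ^ 4 +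
    C4pc5 a b * t ^ 5 + C4pc6 a b * t ^ 6 + C4pc7 a b * t ^ 7 + C4pc8 a b * t ^ 8 +
    C4pc9 a b * t ^ 9 + C4pc10 a b * t ^ 10 + C4pc11 a b * t ^ 11 + C4pc12 a b * t ^ 12 +
    C4pc13 a b * t ^ 13 + C4pc14 a b * t ^ 14 + C4pc15 a b * t ^ 15 + C4pc16 a b * t ^ 16 +
    C4pc17 a b * t ^ 17 + C4pc18 a b * t ^ 18 + C4pc19 a b * t ^ 19 + C4pc20 a b * t ^ 20

/-- coefficient of `t^0` in `C6p` -/
def C6pc0 (_a b : R) : R := b
/-- coefficient of `t^1` in `C6p` -/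
def C6pc1 (a _b : R) : R := 30 * a ^ 2
/-- coefficient of `t^2` in `C6p` -/
def C6pc2 (a b : R) : R := 435 * a * b
/-- coefficient of `t^3` in `C6p` -/
def C6pc3 (a b : R) : R := 1160 * a ^ 3 + 2900 * b ^ 2
/-- coefficient of `t^4` in `C6p` -/
def C6pc4 (a b : R) : R := 27405 * a ^ 2 * b
/-- coefficient of `t^5` in `C6p` -/
def C6pc5 (a b : R) : R := 95526 * a ^ 4 + 46980 * a * b ^ 2
/-- coefficient of `t^6` in `C6p` -/
def C6pc6 (a b : R) : R := 437175 * a ^ 3 * b + 156600 * b ^ 3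
/-- coefficient of `t^7` in `C6p` -/
def C6pc7 (a b : R) : R := -1879200 * a ^ 5 + 3915000 * a ^ 2 * b ^ 2
/-- coefficient of `t^8` in `C6p` -/
def C6pc8 (a b : R) : R := -8554275 * a ^ 4 * b + 14407200 * a * b ^ 3
/-- coefficient of `t^9` in `C6p` -/
def C6pc9 (a b : R) : R := 24312150 * a ^ 6 - 42021000 * a ^ 3 * b ^ 2 + 32016000 * b ^ 4
/-- coefficient of `t^10` in `C6p` -/
def C6pc10 (a b : R) : R := 246633255 * a ^ 5 * b - 216588240 * a ^ 2 * b ^ 3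
/-- coefficient of `t^11` in `C6p` -/
def C6pc11 (a b : R) : R := 162081000 * a ^ 7 + 1352475900 * a ^ 4 * b ^ 2 - 1459929600 * a * b ^ 4
/-- coefficient of `t^12` in `C6p` -/
def C6pc12 (a b : R) : R := 4131714825 * a ^ 6 * b - 1612005600 * a ^ 3 * b ^ 3 - 2433216000 * b ^ 5
/-- coefficient of `t^13` in `C6p` -/
def C6pc13 (a b : R) : R := 6928962750 * a ^ 8 + 5235216300 * a ^ 5 * b ^ 2 - 12044419200 * a ^ 2 * b ^ 4
/-- coefficient of `t^14` in `C6p` -/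
def C6pc14 (a b : R) : R := 43190534475 * a ^ 7 * b - 43045111800 * a ^ 4 * b ^ 3
/-- coefficient of `t^15` in `C6p` -/
def C6pc15 (a b : R) : R := 79575287760 * a ^ 6 * b ^ 2 - 79420170240 * a ^ 3 * b ^ 4
/-- coefficient of `t^16` in `C6p` -/
def C6pc16 (a b : R) : R := -176688550125 * a ^ 8 * b + 474659611200 * a ^ 5 * b ^ 3 - 297825638400 * a ^ 2 * b ^ 5
/-- coefficient of `t^17` in `C6p` -/
def C6pc17 (a b : R) : R := -311803323750 * a ^ 10 + 77604382800 * a ^ 7 * b ^ 2 + 935084908800 * a ^ 4 * b ^ 4 - 700766208000 * a * b ^ 6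
/-- coefficient of `t^18` in `C6p` -/
def C6pc18 (a b : R) : R := -1694131392375 * a ^ 9 * b + 2776512362400 * a ^ 6 * b ^ 3 - 303665356800 * a ^ 3 * b ^ 5 - 778629120000 * b ^ 7
/-- coefficient of `t^19` in `C6p` -/
def C6pc19 (a b : R) : R := -328214025000 * a ^ 11 - 3481840250100 * a ^ 8 * b ^ 2 + 8100765158400 * a ^ 5 * b ^ 4 - 4290656256000 * a ^ 2 * b ^ 6
/-- coefficient of `t^20` in `C6p` -/
def C6pc20 (a b : R) : R := -2874607835625 * a ^ 10 * b + 2424887357760 * a ^ 7 * b ^ 3 + 3892110842880 * a ^ 4 * b ^ 5 - 3442360320000 * a * b ^ 7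
/-- coefficient of `t^21` in `C6p` -/
def C6pc21 (a b : R) : R := -2215444668750 * a ^ 12 + 3077188825500 * a ^ 9 * b ^ 2 - 2709129888000 * a ^ 6 * b ^ 4 + 5125838438400 * a ^ 3 * b ^ 6 - 3278438400000 * b ^ 8
/-- coefficient of `t^22` in `C6p` -/
def C6pc22 (a b : R) : R := -1403114956875 * a ^ 11 * b - 1724509423800 * a ^ 8 * b ^ 3 + 7701051801600 * a ^ 5 * b ^ 5 - 4573421568000 * a ^ 2 * b ^ 7
/-- coefficient of `t^23` in `C6p` -/
def C6pc23 (a b : R) : R := 7705894500000 * a ^ 13 - 33414470973000 * a ^ 10 * b ^ 2 + 49888700928000 * a ^ 7 * b ^ 4 - 30337884979200 * a ^ 4 * b ^ 6 + 6157762560000 * a * b ^ 8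
/-- coefficient of `t^24` in `C6p` -/
def C6pc24 (a b : R) : R := 5089101159375 * a ^ 12 * b - 22687218914400 * a ^ 9 * b ^ 3 + 35246094796800 * a ^ 6 * b ^ 5 - 22779445248000 * a ^ 3 * b ^ 7 + 5131468800000 * b ^ 9
/-- coefficient of `t^25` in `C6p` -/
def C6pc25 (a b : R) : R := -17627233668750 * a ^ 14 + 70097953635000 * a ^ 11 * b ^ 2 - 105528606261120 * a ^ 8 * b ^ 4 + 71274600677376 * a ^ 5 * b ^ 6 - 18216714240000 * a ^ 2 * b ^ 8
/-- coefficient of `t^26` in `C6p` -/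
def C6pc26 (a b : R) : R := -40985726371875 * a ^ 13 * b + 163672057566000 * a ^ 10 * b ^ 3 - 245438120632320 * a ^ 7 * b ^ 5 + 163803539865600 * a ^ 4 * b ^ 7 - 41051750400000 * a * b ^ 9
/-- coefficient of `t^27` in `C6p` -/
def C6pc27 (a b : R) : R := -9632368125000 * a ^ 15 + 8104032382500 * a ^ 12 * b ^ 2 + 63806176396800 * a ^ 9 * b ^ 4 - 143803576074240 * a ^ 6 * b ^ 6 + 111934439424000 * a ^ 3 * b ^ 8 - 30408704000000 * b ^ 10
/-- coefficient of `t^28` in `C6p` -/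
def C6pc28 (a b : R) : R := -21432019078125 * a ^ 14 * b + 85719228804000 * a ^ 11 * b ^ 3 - 128580522647040 * a ^ 8 * b ^ 5 + 85731449241600 * a ^ 5 * b ^ 7 - 21438136320000 * a ^ 2 * b ^ 9
/-- coefficient of `t^29` in `C6p` -/
def C6pc29 (a b : R) : R := -11210083593750 * a ^ 16 + 49873523512500 * a ^ 13 * b ^ 2 - 87394892457600 * a ^ 10 * b ^ 4 + 75042714746880 * a ^ 7 * b ^ 6 - 31344427008000 * a ^ 4 * b ^ 8 + 5033164800000 * a * b ^ 10
/-- coefficient of `t^30` in `C6p` -/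
def C6pc30 (a b : R) : R := -4110363984375 * a ^ 15 * b + 19796866155000 * a ^ 12 * b ^ 3 - 38083944628224 * a ^ 9 * b ^ 5 + 36574189977600 * a ^ 6 * b ^ 7 - 17532190720000 * a ^ 3 * b ^ 9 + 3355443200000 * b ^ 11

/-- degree 30 form (dehomogenised) -/
def C6p (a b t : R) : R :=
  C6pc0 a b + C6pc1 a b * t + C6pc2 a b * t ^ 2 + C6pc3 a b * t ^ 3 + C6pc4 a b * t ^ 4 +
    C6pc5 a b * t ^ 5 + C6pc6 a b * t ^ 6 + C6pc7 a b * t ^ 7 + C6pc8 a b * t ^ 8 +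
    C6pc9 a b * t ^ 9 + C6pc10 a b * t ^ 10 + C6pc11 a b * t ^ 11 + C6pc12 a b * t ^ 12 +
    C6pc13 a b * t ^ 13 + C6pc14 a b * t ^ 14 + C6pc15 a b * t ^ 15 + C6pc16 a b * t ^ 16 +
    C6pc17 a b * t ^ 17 + C6pc18 a b * t ^ 18 + C6pc19 a b * t ^ 19 + C6pc20 a b * t ^ 20 +
    C6pc21 a b * t ^ 21 + C6pc22 a b * t ^ 22 + C6pc23 a b * t ^ 23 + C6pc24 a b * t ^ 24 +
    C6pc25 a b * t ^ 25 + C6pc26 a b * t ^ 26 + C6pc27 a b * t ^ 27 + C6pc28 a b * t ^ 28 +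
    C6pc29 a b * t ^ 29 + C6pc30 a b * t ^ 30

/-- short Weierstrass curve `y^2 = x^3 - 27 a x - 54 b` -/
def shortE (a b : R) : WeierstrassCurve R := ⟨0, 0, 0, -27 * a, -54 * b⟩

section map

variable {S : Type*} [CommRing S] (φ : R →+* S) (a b t : R)

lemma map_Dp : φ (Dp a b t) = Dp (φ a) (φ b) (φ t) := by
  simp only [Dp, Dpc0, Dpc2, Dpc3, Dpc4, Dpc5, Dpc6, Dpc7, Dpc8, Dpc9, Dpc10, Dpc11, Dpc12, map_add, map_sub, map_mul, map_pow, map_neg, map_ofNat, map_one]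

lemma map_C4p : φ (C4p a b t) = C4p (φ a) (φ b) (φ t) := by
  simp only [C4p, C4pc0, C4pc1, C4pc2, C4pc3, C4pc4, C4pc5, C4pc6, C4pc7, C4pc8, C4pc9, C4pc10, C4pc11, C4pc12, C4pc13, C4pc14, C4pc15, C4pc16, C4pc17, C4pc18, C4pc19, C4pc20, map_add, map_sub, map_mul, map_pow, map_neg, map_ofNat]

lemma map_C6p : φ (C6p a b t) = C6p (φ a) (φ b) (φ t) := by
  simp only [C6p, C6pc0, C6pc1, C6pc2, C6pc3, C6pc4, C6pc5, C6pc6, C6pc7, C6pc8, C6pc9, C6pc10, C6pc11, C6pc12, C6pc13, C6pc14, C6pc15, C6pc16, C6pc17, C6pc18, C6pc19, C6pc20, C6pc21, C6pc22, C6pc23, C6pc24, C6pc25, C6pc26, C6pc27, C6pc28, C6pc29, C6pc30, map_add, map_sub, map_mul, map_pow, map_neg, map_ofNat]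

end map

end Fermat.Agent.S52
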