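import Mathlib
import Fermat.Agent.S52.Forms

set_option autoImplicit false

/-!
# Identities between the explicit forms
-/

namespace Fermat.Agent.S52

open Polynomial

variable {R : Type*} [CommRing R]

set_option maxHeartbeats 4000000 in
/-- the syzygy -/
lemma I1 (a b t : R) : C4p a b t ^ 3 - C6p a b t ^ 2 = (a^3 - b^2) * Dp a b t ^ 5 := by
  simp only [C4p, C6p, Dp, Dpc0, Dpc2, Dpc3, Dpc4, Dpc5, Dpc6, Dpc7, Dpc8, Dpc9, Dpc10, Dpc11,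
    Dpc12, C4pc0, C4pc1, C4pc2, C4pc3, C4pc4, C4pc5, C4pc6, C4pc7, C4pc8, C4pc9, C4pc10, C4pc11,
    C4pc12, C4pc13, C4pc14, C4pc15, C4pc16, C4pc17, C4pc18, C4pc19, C4pc20,
    C6pc0, C6pc1, C6pc2, C6pc3, C6pc4, C6pc5, C6pc6, C6pc7, C6pc8, C6pc9, C6pc10, C6pc11, C6pc12,
    C6pc13, C6pc14, C6pc15, C6pc16, C6pc17, C6pc18, C6pc19, C6pc20, C6pc21, C6pc22, C6pc23, C6pc24,
    C6pc25, C6pc26, C6pc27, C6pc28, C6pc29, C6pc30]
  ring

end Fermat.Agent.S52
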