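import Mathlib
import Fermat.Agent.S52.Forms

set_option autoImplicit false

/-!
# Klein's icosahedral forms
-/

namespace Fermat.Agent.S52

variable {R : Type*} [CommRing R]

/-- Klein's form of degree 12 -/
def kf (x y : R) : R := x * y * (x ^ 10 - 11 * x ^ 5 * y ^ 5 - y ^ 10)

/-- Klein's form of degree 20 -/
def kH (x y : R) : R :=
  x ^ 20 + 228 * x ^ 15 * y ^ 5 + 494 * x ^ 10 * y ^ 10 - 228 * x ^ 5 * y ^ 15 + y ^ 20

/-- Klein's form of degree 30 -/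
def kT (x y : R) : R :=
  x ^ 30 - 522 * x ^ 25 * y ^ 5 - 10005 * x ^ 20 * y ^ 10 - 10005 * x ^ 10 * y ^ 20 +
    522 * x ^ 5 * y ^ 25 + y ^ 30

/-- the syzygy -/
lemma klein_syzygy (x y : R) : kH x y ^ 3 - kT x y ^ 2 = 1728 * kf x y ^ 5 := by
  simp only [kf, kH, kT]; ring

/-- first coordinate of `v + t C(v)`, `C = (f_y, -f_x)` -/
def wx (x y t : R) : R := x * (1 + t * (x ^ 10 - 66 * x ^ 5 * y ^ 5 - 11 * y ^ 10))

/-- second coordinate of `v + t C(v)` -/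
def wy (x y t : R) : R := y * (1 - t * (11 * x ^ 10 - 66 * x ^ 5 * y ^ 5 - y ^ 10))

end Fermat.Agent.S52
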