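import Mathlib
import Fermat.Agent.S52.Klein

set_option autoImplicit false

/-!
# Polynomial identities for Klein's parametrisation of 5-torsion

`z` is a primitive fifth root of unity, `p = x ^ 5`, `q = y ^ 5`; everything is scaled by powers
of 5 to be integral.
-/

namespace Fermat.Agent.S52

variable {R : Type*} [CommRing R]

/-- `5 X(Q)` -/
def X5 (z p q : R) : R :=
  -75 * (p ^ 2 + q ^ 2) - 18 * (z - z ^ 2 - z ^ 3 + z ^ 4) * (p ^ 2 - 11 * p * q - q ^ 2)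

/-- `5 Y(Q)` -/
def Y5 (z p q : R) : R :=
  (-216 - 432 * z - 324 * z ^ 2 - 108 * z ^ 3) * p ^ 3 +
  (2484 + 4968 * z + 3456 * z ^ 2 + 1512 * z ^ 3) * p ^ 2 * q +
  (-972 - 1944 * z + 1512 * z ^ 2 - 3456 * z ^ 3) * p * q ^ 2 +
  (-108 - 216 * z + 108 * z ^ 2 - 324 * z ^ 3) * q ^ 3

/-- `5` times the slope of the tangent at `Q` -/
def L5 (z p q : R) : R :=
  (21 + 42 * z + 18 * z ^ 2 + 24 * z ^ 3) * p + (-3 - 6 * z - 24 * z ^ 2 + 18 * z ^ 3) * q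

/-- `kH` in terms of fifth powers -/
def hf (p q : R) : R := p ^ 4 + 228 * p ^ 3 * q + 494 * p ^ 2 * q ^ 2 - 228 * p * q ^ 3 + q ^ 4

/-- `kT` in terms of fifth powers -/
def tf (p q : R) : R :=
  p ^ 6 - 522 * p ^ 5 * q - 10005 * p ^ 4 * q ^ 2 - 10005 * p ^ 2 * q ^ 4 + 522 * p * q ^ 5 + q ^ 6

lemma kH_eq_hf (x y : R) : kH x y = hf (x ^ 5) (y ^ 5) := by simp only [kH, hf]; ring

lemma kT_eq_tf (x y : R) : kT x y = tf (x ^ 5) (y ^ 5) := by simp only [kT, tf]; ring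

/-- `X(P)` -/
def XP (x y : R) : R :=
  3 * x ^ 10 + 36 * x ^ 9 * y + 72 * x ^ 8 * y ^ 2 + 108 * x ^ 7 * y ^ 3 + 180 * x ^ 6 * y ^ 4 +
    90 * x ^ 5 * y ^ 5 + 72 * x ^ 4 * y ^ 6 - 36 * x ^ 3 * y ^ 7 + 36 * x ^ 2 * y ^ 8 + 3 * y ^ 10

/-- `Y(P)` -/
def YP (x y : R) : R :=
  108 * (x ^ 14 * y + 4 * x ^ 13 * y ^ 2 + 9 * x ^ 12 * y ^ 3 + 15 * x ^ 11 * y ^ 4 +
    25 * x ^ 10 * y ^ 5 + 29 * x ^ 9 * y ^ 6 + 21 * x ^ 8 * y ^ 7 + 6 * x ^ 7 * y ^ 8 +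
    5 * x ^ 6 * y ^ 9 + 4 * x ^ 4 * y ^ 11 + x ^ 3 * y ^ 12 + x ^ 2 * y ^ 13)

lemma P_curve (x y : R) : YP x y ^ 2 = XP x y ^ 3 - 27 * kH x y * XP x y + 54 * kT x y := by
  simp only [XP, YP, kH, kT]; ring

/-- `5u` -/
def u5 (z : R) : R :=
      (-2 - 4*z - z^2 - 3*z^3)

/-- `5w` -/
def w5 (z : R) : R :=
      (-1 - 2*z - 3*z^2 + z^3)

/-- `25 (w x + u y) ^ 5` -/
def P25 (z x y : R) : R :=
      (-4 - 8*z - 7*z^2 - z^3)*x^5 + (-15 - 30*z - 20*z^2 - 10*z^3)*x^4*y +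
      (-10 - 20*z - 30*z^2 + 10*z^3)*x^3*y^2 + (-20 - 40*z - 10*z^2 - 30*z^3)*x^2*y^3 +
      (5 + 10*z - 10*z^2 + 20*z^3)*x*y^4 + (-3 - 6*z + z^2 - 7*z^3)*y^5

/-- `25 (u x - w y) ^ 5` -/
def Q25 (z x y : R) : R :=
      (-3 - 6*z + z^2 - 7*z^3)*x^5 + (-5 - 10*z + 10*z^2 - 20*z^3)*x^4*y +
      (-20 - 40*z - 10*z^2 - 30*z^3)*x^3*y^2 + (10 + 20*z + 30*z^2 - 10*z^3)*x^2*y^3 +
      (-15 - 30*z - 20*z^2 - 10*z^3)*x*y^4 + (4 + 8*z + 7*z^2 + z^3)*y^5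

/-- `5` times the slope of the line through `P` and `Q` -/
def La5 (z x y : R) : R :=
      (9 + 18*z + 12*z^2 + 6*z^3)*x^5 + (30 - 30*z)*x^4*y + (30 - 30*z^2)*x^3*y^2 +
      (30 - 30*z^3)*x^2*y^3 + (3 + 6*z - 6*z^2 + 12*z^3)*y^5

section identities

variable {z : R} (hz : z ^ 4 + z ^ 3 + z ^ 2 + z + 1 = 0)
include hz

lemma Q_curve (p q : R) : 5 * Y5 z p q ^ 2 = X5 z p q ^ 3 - 675 * hf p q * X5 z p q + 6750 * tf p q := by
  simp only [X5, Y5, hf, tf]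
  linear_combination ((597780 + 626940*z + 189540*z^2 - 212868*z^3 - 8748*z^4 + 46656*z^5 + 17496*z^6 - 23328*z^7 + 5832*z^8)*p^6 +
      (-13384440 - 14055120*z - 5161320*z^2 + 4618944*z^3 + 1090584*z^4 - 1539648*z^5 - 577368*z^6 + 769824*z^7 - 192456*z^8)*p^5*q +
      (76690800 + 79898400*z + 44906400*z^2 - 24144480*z^3 - 20645280*z^4 + 16796160*z^5 + 6298560*z^6 - 8398080*z^7 + 2099520*z^8)*p^4*q^2 +
      (-23911200 - 6852600*z - 125679600*z^2 - 7377480*z^3 + 103284720*z^4 - 59019840*z^5 - 22132440*z^6 + 29509920*z^7 - 7377480*z^8)*p^3*q^3 +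
      (45781200 - 62402400*z + 42573600*z^2 - 28343520*z^3 + 38141280*z^4 - 16796160*z^5 - 6298560*z^6 + 8398080*z^7 - 2099520*z^8)*p^2*q^4 +
      (9068760 - 10847520*z + 10876680*z^2 - 5003856*z^3 + 4298184*z^4 - 1539648*z^5 - 577368*z^6 + 769824*z^7 - 192456*z^8)*p*q^5 +
      (422820 - 481140*z + 539460*z^2 - 224532*z^3 + 154548*z^4 - 46656*z^5 - 17496*z^6 + 23328*z^7 - 5832*z^8)*q^6) * hz

lemma Q_slope (p q : R) : 2 * Y5 z p q * L5 z p q = 3 * X5 z p q ^ 2 - 675 * hf p q := by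
  simp only [X5, Y5, L5, hf]
  linear_combination ((-25272 - 19116*z - 6156*z^2 + 2916*z^3 - 972*z^4)*p^4 +
      (259524 + 252072*z + 90072*z^2 - 64152*z^3 + 21384*z^4)*p^3*q +
      (243972 - 466884*z - 227124*z^2 + 347004*z^3 - 115668*z^4)*p^2*q^2 +
      (-152604 + 246888*z - 161352*z^2 + 64152*z^3 - 21384*z^4)*p*q^3 +
      (-15552 + 26244*z - 12636*z^2 + 2916*z^3 - 972*z^4)*q^4) * hz

lemma Q_dblX (p q : R) : L5 z p q ^ 2 - 10 * X5 z p q = 5 * X5 (z ^ 2) p q := by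
  simp only [X5, L5]
  linear_combination ((1566 + 378*z + 486*z^2 - 90*z^3 + 90*z^4)*p^2 +
      (-126 - 2358*z + 1854*z^2 + 990*z^3 - 990*z^4)*p*q +
      (1134 - 1278*z + 414*z^2 + 90*z^3 - 90*z^4)*q^2) * hz

lemma Q_dblY (p q : R) : -(5 * Y5 z p q + L5 z p q * (X5 (z ^ 2) p q - X5 z p q)) = 5 * Y5 (z ^ 2) p q := by
  simp only [X5, Y5, L5]
  linear_combination ((2160 - 378*z + 1998*z^2 - 1674*z^3 - 270*z^4 - 108*z^6 + 432*z^7)*p^3 +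
      (-24840 + 4212*z - 21492*z^2 + 17496*z^3 + 3780*z^4 + 432*z^6 - 4428*z^7)*p^2*q +
      (9720 - 216*z - 7344*z^2 + 11772*z^3 - 8640*z^4 + 8424*z^6 - 3996*z^7)*p*q^2 +
      (1080 - 54*z - 486*z^2 + 918*z^3 - 810*z^4 + 756*z^6 - 324*z^7)*q^3) * hz

lemma Q_conjX (p q : R) : X5 (z ^ 4) p q = X5 z p q := by
  simp only [X5]
  linear_combination ((18*z - 36*z^2 + 18*z^4 + 18*z^6 - 36*z^7 + 18*z^8 + 18*z^11 - 18*z^12)*p^2 +
      (-198*z + 396*z^2 - 198*z^4 - 198*z^6 + 396*z^7 - 198*z^8 - 198*z^11 + 198*z^12)*p*q +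
      (-18*z + 36*z^2 - 18*z^4 - 18*z^6 + 36*z^7 - 18*z^8 - 18*z^11 + 18*z^12)*q^2) * hz

lemma Q_conjY (p q : R) : Y5 (z ^ 4) p q = -Y5 z p q := by
  simp only [Y5]
  linear_combination ((-432 + 108*z^2 + 216*z^3 - 324*z^4 + 108*z^7 - 108*z^8)*p^3 +
      (4968 - 1512*z^2 - 1944*z^3 + 3456*z^4 - 1512*z^7 + 1512*z^8)*p^2*q +
      (-1944 + 3456*z^2 - 4968*z^3 + 1512*z^4 + 3456*z^7 - 3456*z^8)*p*q^2 +
      (-216 + 324*z^2 - 432*z^3 + 108*z^4 + 324*z^7 - 324*z^8)*q^3) * hz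

lemma S_p (x y : R) : (w5 z * x + u5 z * y) ^ 5 = 125 * P25 z x y := by
  simp only [w5, u5, P25]
  linear_combination ((499 + 491*z - 170*z^2 - 890*z^3 - 420*z^4 + 117*z^5 + 283*z^6 + 120*z^7 - 235*z^8 + 95*z^9 - 16*z^10 + z^11)*x^5 +
      (1865 + 1785*z - 1675*z^2 - 2500*z^3 - 3675*z^4 - 1055*z^5 + 355*z^6 - 75*z^7 + 1250*z^8 - 825*z^9 + 190*z^10 - 15*z^11)*x^4*y +
      (1210 + 890*z - 350*z^2 - 9400*z^3 - 6600*z^4 - 7620*z^5 - 3730*z^6 + 2100*z^7 - 1850*z^8 + 2350*z^9 - 840*z^10 + 90*z^11)*x^3*y^2 +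
      (2420 + 1780*z - 6750*z^2 - 5100*z^3 - 16250*z^4 - 11040*z^5 - 7010*z^6 - 7250*z^7 + 2600*z^8 - 2250*z^9 + 1620*z^10 - 270*z^11)*x^2*y^3 +
      (-705 - 1345*z - 300*z^2 - 10150*z^3 - 7300*z^4 - 11465*z^5 - 10185*z^6 - 3700*z^7 - 5475*z^8 + 675*z^9 - 1080*z^10 + 405*z^11)*x*y^4 +
      (343 + 87*z - 1915*z^2 - 1080*z^3 - 3915*z^4 - 3481*z^5 - 3169*z^6 - 3435*z^7 - 1170*z^8 - 1485*z^9 - 162*z^10 - 243*z^11)*y^5) * hz

lemma S_q (x y : R) : (u5 z * x - w5 z * y) ^ 5 = 125 * Q25 z x y := by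
  simp only [w5, u5, Q25]
  linear_combination ((343 + 87*z - 1915*z^2 - 1080*z^3 - 3915*z^4 - 3481*z^5 - 3169*z^6 - 3435*z^7 - 1170*z^8 - 1485*z^9 - 162*z^10 - 243*z^11)*x^5 +
      (705 + 1345*z + 300*z^2 + 10150*z^3 + 7300*z^4 + 11465*z^5 + 10185*z^6 + 3700*z^7 + 5475*z^8 - 675*z^9 + 1080*z^10 - 405*z^11)*x^4*y +
      (2420 + 1780*z - 6750*z^2 - 5100*z^3 - 16250*z^4 - 11040*z^5 - 7010*z^6 - 7250*z^7 + 2600*z^8 - 2250*z^9 + 1620*z^10 - 270*z^11)*x^3*y^2 +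
      (-1210 - 890*z + 350*z^2 + 9400*z^3 + 6600*z^4 + 7620*z^5 + 3730*z^6 - 2100*z^7 + 1850*z^8 - 2350*z^9 + 840*z^10 - 90*z^11)*x^2*y^3 +
      (1865 + 1785*z - 1675*z^2 - 2500*z^3 - 3675*z^4 - 1055*z^5 + 355*z^6 - 75*z^7 + 1250*z^8 - 825*z^9 + 190*z^10 - 15*z^11)*x*y^4 +
      (-499 - 491*z + 170*z^2 + 890*z^3 + 420*z^4 - 117*z^5 - 283*z^6 - 120*z^7 + 235*z^8 - 95*z^9 + 16*z^10 - z^11)*y^5) * hz

lemma S_X (x y : R) : X5 z (P25 z x y) (Q25 z x y) = 3125 * XP x y := by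
  simp only [X5, P25, Q25, XP]
  linear_combination ((-11250 + 6000*z + 750*z^2 - 6750*z^3 - 6750*z^4 + 4500*z^5 + 2250*z^6)*x^10 +
      (-123750 + 90000*z - 45000*z^3 - 22500*z^4 + 22500*z^6)*x^9*y +
      (-258750 + 157500*z - 112500*z^3 - 90000*z^4 + 45000*z^5 + 45000*z^6)*x^8*y^2 +
      (-382500 + 270000*z + 45000*z^2 - 225000*z^3 - 180000*z^4 + 90000*z^5 + 90000*z^6)*x^7*y^3 +
      (-641250 + 360000*z - 90000*z^2 - 135000*z^3 - 67500*z^4 + 67500*z^6)*x^6*y^4 +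
      (-281250 + 369000*z + 175500*z^2 - 319500*z^3 - 207000*z^4 + 63000*z^5 + 144000*z^6)*x^5*y^5 +
      (-303750 - 45000*z - 225000*z^2 + 135000*z^3 + 67500*z^4 - 67500*z^6)*x^4*y^6 +
      (157500 + 90000*z + 225000*z^2 - 225000*z^3 - 180000*z^4 + 90000*z^5 + 90000*z^6)*x^3*y^7 +
      (-146250 - 22500*z - 135000*z^2 + 112500*z^3 + 90000*z^4 - 45000*z^5 - 45000*z^6)*x^2*y^8 +
      (11250 + 45000*z + 45000*z^2 - 45000*z^3 - 22500*z^4 + 22500*z^6)*x*y^9 +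
      (-11250 + 1500*z - 8250*z^2 + 6750*z^3 + 6750*z^4 - 4500*z^5 - 2250*z^6)*y^10) * hz

lemma S_Y (x y : R) : Y5 z (P25 z x y) (Q25 z x y) = 78125 * YP x y := by
  simp only [Y5, P25, Q25, YP]
  linear_combination ((-67500 - 472500*z - 1552500*z^2 - 2970000*z^3 - 2700000*z^4 - 945000*z^5 - 540000*z^6 + 540000*z^7 + 270000*z^8)*x^15 +
      (-9112500 + 3712500*z - 14512500*z^2 - 25650000*z^3 - 22275000*z^4 - 18225000*z^5 - 4050000*z^6 + 675000*z^7 + 3375000*z^8)*x^14*y +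
      (-36450000 + 14850000*z - 58050000*z^2 - 102600000*z^3 - 89100000*z^4 - 72900000*z^5 - 16200000*z^6 + 2700000*z^7 + 13500000*z^8)*x^13*y^2 +
      (-83700000 + 21600000*z - 170100000*z^2 - 307800000*z^3 - 270000000*z^4 - 186300000*z^5 - 48600000*z^6 + 21600000*z^7 + 37800000*z^8)*x^12*y^3 +
      (-140737500 + 27337500*z - 306787500*z^2 - 546750000*z^3 - 483975000*z^4 - 338175000*z^5 - 101250000*z^6 + 30375000*z^7 + 62775000*z^8)*x^11*y^4 +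
      (-227205000 + 97065000*z - 365040000*z^2 - 679320000*z^3 - 581175000*z^4 - 414720000*z^5 - 63990000*z^6 + 60615000*z^7 + 98145000*z^8)*x^10*y^5 +
      (-272700000 + 48600000*z - 571050000*z^2 - 939600000*z^3 - 851850000*z^4 - 734400000*z^5 - 272700000*z^6 - 44550000*z^7 + 87750000*z^8)*x^9*y^6 +
      (-176175000 + 184275000*z - 46575000*z^2 - 234900000*z^3 - 133650000*z^4 + 12150000*z^5 + 218700000*z^6 + 166050000*z^7 + 101250000*z^8)*x^8*y^7 +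
      (-85050000 - 190350000*z - 639900000*z^2 - 907200000*z^3 - 911250000*z^4 - 826200000*z^5 - 558900000*z^6 - 190350000*z^7 - 4050000*z^8)*x^7*y^8 +
      (-16200000 + 224100000*z + 419850000*z^2 + 432000000*z^3 + 514350000*z^4 + 685800000*z^5 + 580500000*z^6 + 317250000*z^7 + 82350000*z^8)*x^6*y^9 +
      (-32197500 - 225382500*z - 562342500*z^2 - 703890000*z^3 - 753300000*z^4 - 807165000*z^5 - 613980000*z^6 - 277020000*z^7 - 49410000*z^8)*x^5*y^10 +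
      (-11137500 + 192037500*z + 392512500*z^2 + 484650000*z^3 + 528525000*z^4 + 544725000*z^5 + 449550000*z^6 + 195075000*z^7 + 43875000*z^8)*x^4*y^11 +
      (-20925000 - 78975000*z - 215325000*z^2 - 261900000*z^3 - 282150000*z^4 - 325350000*z^5 - 240300000*z^6 - 117450000*z^7 - 20250000*z^8)*x^3*y^12 +
      (-4050000 + 39150000*z + 75600000*z^2 + 91800000*z^3 + 101250000*z^4 + 105300000*z^5 + 89100000*z^6 + 39150000*z^7 + 9450000*z^8)*x^2*y^13 +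
      (-1012500 - 7087500*z - 17212500*z^2 - 20250000*z^3 - 22275000*z^4 - 26325000*z^5 - 20250000*z^6 - 10125000*z^7 - 2025000*z^8)*x*y^14 +
      (135000 + 945000*z + 2430000*z^2 + 3240000*z^3 + 3375000*z^4 + 3240000*z^5 + 2430000*z^6 + 945000*z^7 + 135000*z^8)*y^15) * hz

end identities

/-- auxiliary form -/
def s25 (z x y : R) : R :=
      (-125)*x^10 + (-750)*x^9*y + (-2250)*x^8*y^2 + (-3000)*x^7*y^3 + (-5250)*x^6*y^4 +
      (-5250)*x^4*y^6 + (3000)*x^3*y^7 + (-2250)*x^2*y^8 + (750)*x*y^9 + (-125)*y^10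

/-- auxiliary form -/
def g25 (z x y : R) : R :=
      (625 + 1250*z^2 + 1250*z^3)*x^9*y + (625 + 1250*z^2 + 1250*z^3)*x^8*y^2 +
      (1250 + 2500*z^2 + 2500*z^3)*x^7*y^3 + (1875 + 3750*z^2 + 3750*z^3)*x^6*y^4 +
      (3125 + 6250*z^2 + 6250*z^3)*x^5*y^5 + (-1875 - 3750*z^2 - 3750*z^3)*x^4*y^6 +
      (1250 + 2500*z^2 + 2500*z^3)*x^3*y^7 + (-625 - 1250*z^2 - 1250*z^3)*x^2*y^8 +
      (625 + 1250*z^2 + 1250*z^3)*x*y^9

/-- auxiliary form -/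
def r25 (z x y : R) : R :=
      (5 + 10*z^2 + 10*z^3)*x^10 + (-25 - 50*z^2 - 50*z^3)*x^9*y + (25 + 50*z^2 + 50*z^3)*x^8*y^2 +
      (50 + 100*z^2 + 100*z^3)*x^7*y^3 + (-75 - 150*z^2 - 150*z^3)*x^6*y^4 +
      (-55 - 110*z^2 - 110*z^3)*x^5*y^5 + (75 + 150*z^2 + 150*z^3)*x^4*y^6 +
      (50 + 100*z^2 + 100*z^3)*x^3*y^7 + (-25 - 50*z^2 - 50*z^3)*x^2*y^8 +
      (-25 - 50*z^2 - 50*z^3)*x*y^9 + (-5 - 10*z^2 - 10*z^3)*y^10

/-- auxiliary form -/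
def k25 (z x y : R) : R :=
      (-1953125)*x^20 + (11718750)*x^19*y + (-35156250)*x^18*y^2 + (46875000)*x^17*y^3 +
      (152343750)*x^16*y^4 + (-386718750)*x^15*y^5 + (11718750)*x^14*y^6 + (726562500)*x^13*y^7 +
      (105468750)*x^12*y^8 + (-785156250)*x^11*y^9 + (-144531250)*x^10*y^10 +
      (785156250)*x^9*y^11 + (105468750)*x^8*y^12 + (-726562500)*x^7*y^13 + (11718750)*x^6*y^14 +
      (386718750)*x^5*y^15 + (152343750)*x^4*y^16 + (-46875000)*x^3*y^17 + (-35156250)*x^2*y^18 +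
      (-11718750)*x*y^19 + (-1953125)*y^20

section identities

variable {z : R} (hz : z ^ 4 + z ^ 3 + z ^ 2 + z + 1 = 0)
include hz

lemma S_s (x y : R) : P25 z x y ^ 2 + Q25 z x y ^ 2 = s25 z x y := by
  simp only [P25, Q25, s25]
  linear_combination ((150 - 50*z + 50*z^2)*x^10 + (900 - 300*z + 300*z^2)*x^9*y + (2700 - 900*z + 900*z^2)*x^8*y^2 +
      (3600 - 1200*z + 1200*z^2)*x^7*y^3 + (6300 - 2100*z + 2100*z^2)*x^6*y^4 +
      (6300 - 2100*z + 2100*z^2)*x^4*y^6 + (-3600 + 1200*z - 1200*z^2)*x^3*y^7 +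
      (2700 - 900*z + 900*z^2)*x^2*y^8 + (-900 + 300*z - 300*z^2)*x*y^9 +
      (150 - 50*z + 50*z^2)*y^10) * hz

lemma S_g (x y : R) : P25 z x y ^ 2 - 11 * P25 z x y * Q25 z x y - Q25 z x y ^ 2 = g25 z x y := by
  simp only [P25, Q25, g25]
  linear_combination ((-125 - 375*z - 125*z^2)*x^10 + (-1250 - 1250*z - 1250*z^2)*x^9*y +
      (-2500 - 5000*z - 2500*z^2)*x^8*y^2 + (-5000 - 10000*z - 5000*z^2)*x^7*y^3 +
      (-3750 - 3750*z - 3750*z^2)*x^6*y^4 + (-8000 - 11500*z - 8000*z^2)*x^5*y^5 +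
      (3750 + 3750*z + 3750*z^2)*x^4*y^6 + (-5000 - 10000*z - 5000*z^2)*x^3*y^7 +
      (2500 + 5000*z + 2500*z^2)*x^2*y^8 + (-1250 - 1250*z - 1250*z^2)*x*y^9 +
      (125 + 375*z + 125*z^2)*y^10) * hz

lemma S_r (x y : R) : P25 z x y * Q25 z x y = r25 z x y := by
  simp only [P25, Q25, r25]
  linear_combination ((7 + 41*z + 7*z^2)*x^10 + (90 + 170*z + 90*z^2)*x^9*y + (160 + 580*z + 160*z^2)*x^8*y^2 +
      (320 + 1160*z + 320*z^2)*x^7*y^3 + (270 + 510*z + 270*z^2)*x^6*y^4 +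
      (548 + 1424*z + 548*z^2)*x^5*y^5 + (-270 - 510*z - 270*z^2)*x^4*y^6 +
      (320 + 1160*z + 320*z^2)*x^3*y^7 + (-160 - 580*z - 160*z^2)*x^2*y^8 +
      (90 + 170*z + 90*z^2)*x*y^9 + (-7 - 41*z - 7*z^2)*y^10) * hz

lemma S_k (x y : R) : g25 z x y ^ 2 - 500 * g25 z x y * r25 z x y - 15625 * r25 z x y ^ 2 = k25 z x y := by
  simp only [g25, r25, k25]
  linear_combination ((1562500 - 1562500*z - 1562500*z^2)*x^20 + (-9375000 + 9375000*z + 9375000*z^2)*x^19*y +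
      (28125000 - 28125000*z - 28125000*z^2)*x^18*y^2 +
      (-37500000 + 37500000*z + 37500000*z^2)*x^17*y^3 +
      (-121875000 + 121875000*z + 121875000*z^2)*x^16*y^4 +
      (309375000 - 309375000*z - 309375000*z^2)*x^15*y^5 +
      (-9375000 + 9375000*z + 9375000*z^2)*x^14*y^6 +
      (-581250000 + 581250000*z + 581250000*z^2)*x^13*y^7 +
      (-84375000 + 84375000*z + 84375000*z^2)*x^12*y^8 +
      (628125000 - 628125000*z - 628125000*z^2)*x^11*y^9 +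
      (115625000 - 115625000*z - 115625000*z^2)*x^10*y^10 +
      (-628125000 + 628125000*z + 628125000*z^2)*x^9*y^11 +
      (-84375000 + 84375000*z + 84375000*z^2)*x^8*y^12 +
      (581250000 - 581250000*z - 581250000*z^2)*x^7*y^13 +
      (-9375000 + 9375000*z + 9375000*z^2)*x^6*y^14 +
      (-309375000 + 309375000*z + 309375000*z^2)*x^5*y^15 +
      (-121875000 + 121875000*z + 121875000*z^2)*x^4*y^16 +
      (37500000 - 37500000*z - 37500000*z^2)*x^3*y^17 +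
      (28125000 - 28125000*z - 28125000*z^2)*x^2*y^18 +
      (9375000 - 9375000*z - 9375000*z^2)*x*y^19 + (1562500 - 1562500*z - 1562500*z^2)*y^20) * hz

lemma S_H_aux (x y : R) : g25 z x y ^ 2 + 250 * g25 z x y * r25 z x y + 3125 * r25 z x y ^ 2 = 390625 * kH x y := by
  simp only [g25, r25, kH]
  linear_combination ((-312500 + 312500*z + 312500*z^2)*x^20 + (-71250000 + 71250000*z + 71250000*z^2)*x^15*y^5 +
      (-154375000 + 154375000*z + 154375000*z^2)*x^10*y^10 +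
      (71250000 - 71250000*z - 71250000*z^2)*x^5*y^15 + (-312500 + 312500*z + 312500*z^2)*y^20) * hz

lemma S_T_aux (x y : R) : s25 z x y * k25 z x y = 244140625 * kT x y := by
  simp only [s25, k25, kT]
  linear_combination (0) * hz

lemma S_H (x y : R) : hf (P25 z x y) (Q25 z x y) = 390625 * kH x y := by
  rw [← S_H_aux hz, ← S_g hz, ← S_r hz, hf]; ring

lemma S_T (x y : R) : tf (P25 z x y) (Q25 z x y) = 244140625 * kT x y := by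
  rw [← S_T_aux hz, ← S_k hz, ← S_g hz, ← S_r hz, ← S_s hz, tf]; ring

lemma S_Cx (x y : R) : (w5 z * x + u5 z * y) * (P25 z x y ^ 2 - 66 * P25 z x y * Q25 z x y - 11 * Q25 z x y ^ 2) =
      625 * (w5 z * (x * (x ^ 10 - 66 * x ^ 5 * y ^ 5 - 11 * y ^ 10)) - u5 z * (y * (11 * x ^ 10 - 66 * x ^ 5 * y ^ 5 - y ^ 10))) := by
  simp only [w5, u5, P25, Q25]
  linear_combination ((1500 + 5000*z + 9500*z^2 + 6500*z^3 + 1000*z^4 - 1000*z^5)*x^11 +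
      (-7500 + 17500*z + 76000*z^2 + 34500*z^3 + 28000*z^4 - 6000*z^5)*x^10*y +
      (22500 + 112500*z + 195000*z^2 + 165000*z^3 + 60000*z^4 + 7500*z^5)*x^9*y^2 +
      (52500 + 262500*z + 450000*z^2 + 375000*z^3 + 150000*z^4 + 22500*z^5)*x^8*y^3 +
      (67500 + 337500*z + 532500*z^2 + 390000*z^3 + 285000*z^4 + 75000*z^5)*x^7*y^4 +
      (21000 + 270000*z + 468000*z^2 + 561000*z^3 + 144000*z^4 + 51000*z^5)*x^6*y^5 +
      (135000 + 345000*z + 234000*z^2 + 273000*z^3 + 252000*z^4 + 156000*z^5)*x^5*y^6 +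
      (7500 + 37500*z + 127500*z^2 + 180000*z^3 - 105000*z^4 - 60000*z^5)*x^4*y^7 +
      (30000 + 150000*z + 187500*z^2 + 75000*z^3 + 225000*z^4 + 82500*z^5)*x^3*y^8 +
      (-15000 - 75000*z - 97500*z^2 - 45000*z^3 - 105000*z^4 - 37500*z^5)*x^2*y^9 +
      (-1500 + 20000*z + 23000*z^2 + 33500*z^3 + 34000*z^4 + 18500*z^5)*x*y^10 +
      (-5000*z - 11000*z^2 - 4500*z^3 - 8000*z^4 - 1500*z^5)*y^11) * hz

lemma S_Cy (x y : R) : (u5 z * x - w5 z * y) * (11 * P25 z x y ^ 2 - 66 * P25 z x y * Q25 z x y - Q25 z x y ^ 2) =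
      -625 * (u5 z * (x * (x ^ 10 - 66 * x ^ 5 * y ^ 5 - 11 * y ^ 10)) + w5 z * (y * (11 * x ^ 10 - 66 * x ^ 5 * y ^ 5 - y ^ 10))) := by
  simp only [w5, u5, P25, Q25]
  linear_combination ((5000*z + 11000*z^2 + 4500*z^3 + 8000*z^4 + 1500*z^5)*x^11 +
      (-1500 + 20000*z + 23000*z^2 + 33500*z^3 + 34000*z^4 + 18500*z^5)*x^10*y +
      (15000 + 75000*z + 97500*z^2 + 45000*z^3 + 105000*z^4 + 37500*z^5)*x^9*y^2 +
      (30000 + 150000*z + 187500*z^2 + 75000*z^3 + 225000*z^4 + 82500*z^5)*x^8*y^3 +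
      (-7500 - 37500*z - 127500*z^2 - 180000*z^3 + 105000*z^4 + 60000*z^5)*x^7*y^4 +
      (135000 + 345000*z + 234000*z^2 + 273000*z^3 + 252000*z^4 + 156000*z^5)*x^6*y^5 +
      (-21000 - 270000*z - 468000*z^2 - 561000*z^3 - 144000*z^4 - 51000*z^5)*x^5*y^6 +
      (67500 + 337500*z + 532500*z^2 + 390000*z^3 + 285000*z^4 + 75000*z^5)*x^4*y^7 +
      (-52500 - 262500*z - 450000*z^2 - 375000*z^3 - 150000*z^4 - 22500*z^5)*x^3*y^8 +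
      (22500 + 112500*z + 195000*z^2 + 165000*z^3 + 60000*z^4 + 7500*z^5)*x^2*y^9 +
      (7500 - 17500*z - 76000*z^2 - 34500*z^3 - 28000*z^4 + 6000*z^5)*x*y^10 +
      (1500 + 5000*z + 9500*z^2 + 6500*z^3 + 1000*z^4 - 1000*z^5)*y^11) * hz

lemma PQ_slope (x y : R) : La5 z x y * (5 * XP x y - X5 z (x ^ 5) (y ^ 5)) = 5 * (5 * YP x y - Y5 z (x ^ 5) (y ^ 5)) := by
  simp only [La5, XP, YP, X5, Y5]
  linear_combination ((-270 - 108*z + 108*z^3)*x^15 + (1620 - 540*z)*x^14*y + (540 + 1080*z - 540*z^2)*x^13*y^2 +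
      (-540 + 1080*z^2 - 540*z^3)*x^12*y^3 + (3240 + 1512*z - 540*z^2 - 972*z^3)*x^10*y^5 +
      (-17820 + 5940*z)*x^9*y^6 + (-5940 - 11880*z + 5940*z^2)*x^8*y^7 +
      (5940 - 11880*z^2 + 5940*z^3)*x^7*y^8 + (-2700 - 3456*z + 5940*z^2 - 2484*z^3)*x^5*y^10 +
      (-1620 + 540*z)*x^4*y^11 + (-540 - 1080*z + 540*z^2)*x^3*y^12 +
      (540 - 1080*z^2 + 540*z^3)*x^2*y^13 + (-270 - 324*z + 540*z^2 - 216*z^3)*y^15) * hz

lemma PQ_slope2 (x y : R) : La5 z x y * (5 * YP x y + Y5 z (x ^ 5) (y ^ 5)) =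
      25 * XP x y ^ 2 + 5 * XP x y * X5 z (x ^ 5) (y ^ 5) + X5 z (x ^ 5) (y ^ 5) ^ 2 - 675 * kH x y := by
  simp only [La5, XP, YP, X5, Y5, kH]
  linear_combination ((-5994 - 4212*z - 972*z^2 + 972*z^3 - 324*z^4)*x^20 + (6480)*x^19*y + (12960 + 3240*z)*x^18*y^2 +
      (12960 + 6480*z + 3240*z^2)*x^17*y^3 + (16200)*x^16*y^4 +
      (58158 + 63504*z + 14904*z^2 - 21384*z^3 + 7128*z^4)*x^15*y^5 + (-74520)*x^14*y^6 +
      (-132840 - 45360*z)*x^13*y^7 + (-149040 - 58320*z - 45360*z^2)*x^12*y^8 +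
      (-178200)*x^11*y^9 + (95904 - 190188*z - 41148*z^2 + 115668*z^3 - 38556*z^4)*x^10*y^10 +
      (29160)*x^9*y^11 + (-119880 + 103680*z)*x^8*y^12 +
      (58320 - 149040*z + 103680*z^2)*x^7*y^13 + (-16200)*x^6*y^14 +
      (-40338 + 43416*z - 50544*z^2 + 21384*z^3 - 7128*z^4)*x^5*y^15 + (3240)*x^4*y^16 +
      (-9720 + 9720*z)*x^3*y^17 + (6480 - 12960*z + 9720*z^2)*x^2*y^18 +
      (-4374 + 5508*z - 4212*z^2 + 972*z^3 - 324*z^4)*y^20) * hz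

lemma PQ_X (x y : R) : 25 * XP x (z * y) = La5 z x y ^ 2 - 25 * XP x y - 5 * X5 z (x ^ 5) (y ^ 5) := by
  simp only [La5, XP, X5]
  linear_combination ((-306 - 108*z - 36*z^2)*x^10 + (360)*x^9*y + (360 + 360*z)*x^8*y^2 +
      (360 + 360*z + 360*z^2)*x^7*y^3 + (1800)*x^6*y^4 + (396 + 378*z - 144*z^2)*x^5*y^5 +
      (720 - 900*z + 900*z^2)*x^4*y^6 + (-1080 + 720*z + 900*z^2 - 900*z^3)*x^3*y^7 +
      (720 - 1080*z + 720*z^2 - 900*z^3 + 900*z^4)*x^2*y^8 +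
      (-309 + 363*z - 144*z^2 - 75*z^5 + 75*z^6)*y^10) * hz

lemma PQ_Y (x y : R) : 25 * YP x (z * y) = -(25 * YP x y + La5 z x y * (5 * XP x (z * y) - 5 * XP x y)) := by
  simp only [La5, XP, YP]
  linear_combination ((1080)*x^14*y + (2160 + 2160*z)*x^13*y^2 + (3240 + 3240*z + 3240*z^2)*x^12*y^3 +
      (5400*z + 5400*z^2 + 5400*z^3)*x^11*y^4 +
      (9450 + 9450*z + 2700*z^2 + 2700*z^3 + 2700*z^4)*x^10*y^5 +
      (17820 - 11340*z + 18360*z^2 + 2160*z^3 + 2160*z^4 + 2160*z^5)*x^9*y^6 +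
      (5940 + 5940*z + 7020*z^2 + 7020*z^3 - 1080*z^4 - 1080*z^5 - 1080*z^6)*x^8*y^7 +
      (-5940 - 5940*z + 23760*z^2 - 4320*z^3 - 4320*z^4 + 1080*z^5 + 1080*z^6 + 1080*z^7)*x^7*y^8 +
      (2700*z^4 + 2700*z^5)*x^6*y^9 +
      (-1485 - 1485*z + 10890*z^2 - 18810*z^3 + 10890*z^4 - 135*z^5 - 135*z^6 + 90*z^7 + 90*z^8 + 90*z^9)*x^5*y^10 +
      (3870 - 5580*z + 3870*z^2 - 1080*z^3 - 1080*z^4 + 3870*z^5 - 4500*z^6 + 4950*z^7)*x^4*y^11 +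
      (2790 - 1710*z - 1710*z^2 + 2790*z^3 - 2160*z^4 + 2790*z^5 - 1710*z^6 - 2250*z^7 + 2250*z^8)*x^3*y^12 +
      (1710 - 2790*z + 2160*z^2 - 2790*z^3 + 1710*z^4 + 1710*z^5 - 2790*z^6 + 2160*z^7 - 2250*z^8 + 2250*z^9)*x^2*y^13 +
      (-45 - 45*z + 180*z^2 - 270*z^3 + 180*z^4 - 45*z^5 - 45*z^6 + 180*z^7 - 270*z^8 + 180*z^9)*y^15) * hz

/-- the determinant used to recover `(p, q)` from the slopes -/
lemma slope_det : (21 + 42 * z + 18 * z ^ 2 + 24 * z ^ 3) * (-3 - 6 * z ^ 2 - 24 * (z ^ 2) ^ 2 + 18 * (z ^ 2) ^ 3) -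
    (-3 - 6 * z - 24 * z ^ 2 + 18 * z ^ 3) * (21 + 42 * z ^ 2 + 18 * (z ^ 2) ^ 2 + 24 * (z ^ 2) ^ 3) = -2250 := by
  linear_combination ((2250 - 2250*z + 450*z^2 - 900*z^3 + 900*z^4)) * hz

lemma S_sq : w5 z ^ 2 + u5 z ^ 2 = -25 := by
  simp only [w5, u5]
  linear_combination ((30 - 10*z + 10*z^2)) * hz

end identities

end Fermat.Agent.S52
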