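import Mathlib
import Fermat.Agent.S52.KleinId
import Fermat.Agent.S51_lib.Torsion
import Fermat.Agent.S51_lib.Count

set_option autoImplicit false

/-!
# The 5-torsion points `P`, `Q` attached to a vector `v`
-/

namespace Fermat.Agent.S52

open WeierstrassCurve

variable {K : Type*} [Field K]

/-- `W` is the curve `Y² = X³ - 27 H(v) X + 54 T(v)` -/
structure IsK (W : Affine K) (v : K × K) : Prop where
  a₁ : W.a₁ = 0
  a₂ : W.a₂ = 0
  a₃ : W.a₃ = 0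
  a₄ : W.a₄ = -27 * kH v.1 v.2
  a₆ : W.a₆ = 54 * kT v.1 v.2

variable {W : Affine K} {v v' : K × K}

lemma IsK.equation_iff (h : IsK W v) (X Y : K) :
    W.Equation X Y ↔ Y ^ 2 = X ^ 3 - 27 * kH v.1 v.2 * X + 54 * kT v.1 v.2 := by
  rw [Affine.equation_iff, h.a₁, h.a₂, h.a₃, h.a₄, h.a₆]
  constructor <;> intro e <;> linear_combination e

lemma IsK.kH_eq (h27 : (27 : K) ≠ 0) (h : IsK W v) (h' : IsK W v') :
    kH v'.1 v'.2 = kH v.1 v.2 := by
  have := h.a₄.symm.trans h'.a₄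
  apply mul_left_cancel₀ (a := -27) (by simpa using h27)
  exact this.symm

lemma IsK.of_eq (h : IsK W v) (hH : kH v'.1 v'.2 = kH v.1 v.2) (hT : kT v'.1 v'.2 = kT v.1 v.2) :
    IsK W v' := ⟨h.a₁, h.a₂, h.a₃, by rw [hH, h.a₄], by rw [hT, h.a₆]⟩

/-- `X(Q)` -/
def XQ (z : K) (v : K × K) : K := X5 z (v.1 ^ 5) (v.2 ^ 5) / 5

/-- `Y(Q)` -/
def YQ (z : K) (v : K × K) : K := Y5 z (v.1 ^ 5) (v.2 ^ 5) / 5

/-- the tangent slope at `Q` -/
def LQ (z : K) (v : K × K) : K := L5 z (v.1 ^ 5) (v.2 ^ 5) / 5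

/-- the slope of the line through `P`, `Q` -/
def La (z : K) (v : K × K) : K := La5 z v.1 v.2 / 5

variable [W.IsElliptic]

lemma nonsing_P (h : IsK W v) : W.Nonsingular (XP v.1 v.2) (YP v.1 v.2) := by
  rw [← Affine.equation_iff_nonsingular, h.equation_iff]
  exact P_curve _ _

section Q

variable (h5 : (5 : K) ≠ 0) {z : K} (hz : z ^ 4 + z ^ 3 + z ^ 2 + z + 1 = 0)

include h5 hz

lemma Q_curve' (v : K × K) : YQ z v ^ 2 =
    XQ z v ^ 3 - 27 * kH v.1 v.2 * XQ z v + 54 * kT v.1 v.2 := by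
  have e := Q_curve hz (v.1 ^ 5) (v.2 ^ 5)
  rw [← kH_eq_hf, ← kT_eq_tf] at e
  simp only [XQ, YQ]
  field_simp
  linear_combination e

lemma Q_slope' (v : K × K) : LQ z v * (YQ z v + YQ z v) =
    XQ z v ^ 2 + XQ z v * XQ z v + XQ z v ^ 2 - 27 * kH v.1 v.2 := by
  have e := Q_slope hz (v.1 ^ 5) (v.2 ^ 5)
  rw [← kH_eq_hf] at e
  simp only [XQ, YQ, LQ]
  field_simp
  linear_combination e

lemma Q_dblX' (v : K × K) : XQ (z ^ 2) v = LQ z v ^ 2 - XQ z v - XQ z v := by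
  have e := Q_dblX hz (v.1 ^ 5) (v.2 ^ 5)
  simp only [XQ, LQ]
  field_simp
  linear_combination -e

lemma Q_dblY' (v : K × K) : YQ (z ^ 2) v = -(YQ z v + LQ z v * (XQ (z ^ 2) v - XQ z v)) := by
  have e := Q_dblY hz (v.1 ^ 5) (v.2 ^ 5)
  simp only [XQ, YQ, LQ]
  field_simp
  linear_combination -e

lemma nonsing_Q (h : IsK W v) : W.Nonsingular (XQ z v) (YQ z v) := by
  rw [← Affine.equation_iff_nonsingular, h.equation_iff]
  exact Q_curve' h5 hz v

end Q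

omit [W.IsElliptic] in
lemma some_congr {X Y X' Y' : K} {h : W.Nonsingular X Y} {h' : W.Nonsingular X' Y'} (hX : X = X')
    (hY : Y = Y') : Affine.Point.some X Y h = Affine.Point.some X' Y' h' := by
  subst hX hY; rfl

variable [DecidableEq K]

omit [W.IsElliptic] in
lemma add_of_slope (hW : IsK W v) {X1 Y1 X2 Y2 X3 Y3 Λ : K} (h1 : W.Nonsingular X1 Y1)
    (h2 : W.Nonsingular X2 Y2) (h3 : W.Nonsingular X3 Y3) (hs : Λ * (X1 - X2) = Y1 - Y2)
    (hs' : Λ * (Y1 + Y2) = X1 ^ 2 + X1 * X2 + X2 ^ 2 - 27 * kH v.1 v.2)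
    (hX : X3 = Λ ^ 2 - X1 - X2) (hY : Y3 = -(Y1 + Λ * (X3 - X1))) :
    Affine.Point.some X1 Y1 h1 + Affine.Point.some X2 Y2 h2 = Affine.Point.some X3 Y3 h3 := by
  have hneg : ∀ X Y, W.negY X Y = -Y := by
    intro X Y; rw [Affine.negY, hW.a₁, hW.a₃]; ring
  have hxy : ¬(X1 = X2 ∧ Y1 = W.negY X2 Y2) := by
    rintro ⟨rfl, hy⟩
    rw [hneg] at hy
    have hY12 : Y1 = Y2 := by linear_combination -hs
    subst hY12
    rw [Affine.nonsingular_iff'] at h1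
    rcases h1.2 with hh | hh
    · apply hh
      rw [hW.a₁, hW.a₂, hW.a₄]
      have : Y1 + Y1 = 0 := by linear_combination hy
      rw [this] at hs'
      linear_combination hs'
    · apply hh
      rw [hW.a₁, hW.a₃]
      linear_combination hy
  have hslope : W.slope X1 X2 Y1 Y2 = Λ := by
    by_cases hx : X1 = X2
    · subst hx
      have hy : Y1 ≠ W.negY X1 Y2 := fun hy => hxy ⟨rfl, hy⟩
      have hY12 : Y1 = Y2 := by linear_combination -hs
      subst hY12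
      rw [Affine.slope_of_Y_ne rfl hy, hneg, hW.a₁, hW.a₂, hW.a₄]
      rw [hneg] at hy
      have : Y1 - -Y1 ≠ 0 := sub_ne_zero.mpr hy
      rw [div_eq_iff this]
      linear_combination -hs'
    · rw [Affine.slope_of_X_ne hx, div_eq_iff (sub_ne_zero.mpr hx)]
      exact hs.symm
  rw [Affine.Point.add_some hxy]
  have eX : W.addX X1 X2 (W.slope X1 X2 Y1 Y2) = X3 := by
    rw [hslope, Affine.addX, hW.a₁, hW.a₂, hX]; ring
  apply some_congr
  · exact eX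
  · rw [Affine.addY, hneg, Affine.negAddY, eX, hslope, hY]; ring

/-- the point `P` -/
def PP (h : IsK W v) : W.Point := Affine.Point.some _ _ (nonsing_P h)

variable (h5 : (5 : K) ≠ 0) {z : K} (hz : z ^ 4 + z ^ 3 + z ^ 2 + z + 1 = 0)

/-- the point `Q` -/
def QP (h : IsK W v) : W.Point := Affine.Point.some _ _ (nonsing_Q h5 hz h)

omit [DecidableEq K] in
lemma PP_ne_zero (h : IsK W v) : PP h ≠ 0 := Affine.Point.some_ne_zero _

omit [DecidableEq K] in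
lemma QP_ne_zero (h : IsK W v) : QP h5 hz h ≠ 0 := Affine.Point.some_ne_zero _

omit [DecidableEq K] in
lemma Phi_pow_two {z : K} (hz : z ^ 4 + z ^ 3 + z ^ 2 + z + 1 = 0) :
    (z ^ 2) ^ 4 + (z ^ 2) ^ 3 + (z ^ 2) ^ 2 + z ^ 2 + 1 = 0 := by
  linear_combination (z ^ 4 - z ^ 3 + z ^ 2 - z + 1) * hz

omit [DecidableEq K] in
lemma z_pow_five {z : K} (hz : z ^ 4 + z ^ 3 + z ^ 2 + z + 1 = 0) : z ^ 5 = 1 := by
  linear_combination (z - 1) * hz

lemma QP_sq (h : IsK W v) : QP h5 (Phi_pow_two hz) h = (2 : ℤ) • QP h5 hz h := by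
  rw [two_zsmul]
  symm
  exact add_of_slope h _ _ _ (by ring) (Q_slope' h5 hz v) (Q_dblX' h5 hz v) (Q_dblY' h5 hz v)

omit [DecidableEq K] in
lemma QP_inv (h : IsK W v) : QP h5 (Phi_pow_two (Phi_pow_two hz)) h = - QP h5 hz h := by
  rw [QP, QP, Affine.Point.neg_some]
  have hz4 : (z ^ 2) ^ 2 = z ^ 4 := by ring
  apply some_congr
  · rw [XQ, XQ, hz4, Q_conjX hz]
  · rw [Affine.negY, h.a₁, h.a₃, YQ, YQ, hz4, Q_conjY hz]; ring

lemma five_QP (h : IsK W v) : (5 : ℤ) • QP h5 hz h = 0 := by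
  have e1 := QP_sq h5 (Phi_pow_two hz) h
  rw [QP_sq h5 hz h, QP_inv h5 hz h, smul_smul] at e1
  have : (5 : ℤ) • QP h5 hz h = (2 * 2 : ℤ) • QP h5 hz h + QP h5 hz h := by
    rw [show (5 : ℤ) = 2 * 2 + 1 from rfl, add_zsmul, one_zsmul]
  rw [this, ← e1]
  exact neg_add_cancel _

end Fermat.Agent.S52
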