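import Mathlib
import Fermat.Agent.S52.Points

set_option autoImplicit false

/-!
# The action of the icosahedral group on the points `P`, `Q`
-/

namespace Fermat.Agent.S52

open WeierstrassCurve

variable {K : Type*} [Field K]

/-- `T` -/
def Tv (z : K) (v : K × K) : K × K := (v.1, z * v.2)

/-- `S` -/
def Sv (z : K) (v : K × K) : K × K :=
  ((w5 z * v.1 + u5 z * v.2) / 5, (u5 z * v.1 - w5 z * v.2) / 5)

/-- scaling -/
def Cv (z : K) (v : K × K) : K × K := (z * v.1, z * v.2)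

/-- the covariant line through `v` -/
def wv (v : K × K) (t : K) : K × K := (wx v.1 v.2 t, wy v.1 v.2 t)

section

variable {z : K} (hz : z ^ 4 + z ^ 3 + z ^ 2 + z + 1 = 0)
include hz

lemma mul_pow_five (y : K) : (z * y) ^ 5 = y ^ 5 := by
  rw [mul_pow, z_pow_five hz, one_mul]

lemma mul_pow_ten (y : K) : (z * y) ^ 10 = y ^ 10 := by
  rw [show 10 = 5 * 2 from rfl, pow_mul, mul_pow_five hz, ← pow_mul]

lemma kH_T (v : K × K) : kH (Tv z v).1 (Tv z v).2 = kH v.1 v.2 := by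
  simp only [Tv, kH_eq_hf, mul_pow_five hz]

lemma kT_T (v : K × K) : kT (Tv z v).1 (Tv z v).2 = kT v.1 v.2 := by
  simp only [Tv, kT_eq_tf, mul_pow_five hz]

lemma kH_C (v : K × K) : kH (Cv z v).1 (Cv z v).2 = kH v.1 v.2 := by
  simp only [Cv, kH_eq_hf, mul_pow_five hz]

lemma kT_C (v : K × K) : kT (Cv z v).1 (Cv z v).2 = kT v.1 v.2 := by
  simp only [Cv, kT_eq_tf, mul_pow_five hz]

lemma wv_T (v : K × K) (t : K) : wv (Tv z v) t = Tv z (wv v t) := by
  ext
  · simp only [Tv, wv, wx, mul_pow_five hz, mul_pow_ten hz]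
  · simp only [Tv, wv, wy, mul_pow_five hz, mul_pow_ten hz]; ring

lemma wv_C (v : K × K) (t : K) : wv (Cv z v) t = Cv z (wv v t) := by
  ext
  · simp only [Cv, wv, wx, mul_pow_five hz, mul_pow_ten hz]; ring
  · simp only [Cv, wv, wy, mul_pow_five hz, mul_pow_ten hz]; ring

variable (h5 : (5 : K) ≠ 0)
include h5

lemma S_pow_1 (v : K × K) : (Sv z v).1 ^ 5 = P25 z v.1 v.2 / 25 := by
  simp only [Sv]
  rw [div_pow, S_p hz]
  have : (25 : K) ≠ 0 := by
    rw [show (25 : K) = 5 ^ 2 by norm_num]; exact pow_ne_zero _ h5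
  field_simp
  ring

lemma S_pow_2 (v : K × K) : (Sv z v).2 ^ 5 = Q25 z v.1 v.2 / 25 := by
  simp only [Sv]
  rw [div_pow, S_q hz]
  have : (25 : K) ≠ 0 := by
    rw [show (25 : K) = 5 ^ 2 by norm_num]; exact pow_ne_zero _ h5
  field_simp
  ring

lemma kH_S (v : K × K) : kH (Sv z v).1 (Sv z v).2 = kH v.1 v.2 := by
  rw [kH_eq_hf, S_pow_1 hz h5, S_pow_2 hz h5]
  have h25 : (25 : K) ≠ 0 := by
    rw [show (25 : K) = 5 ^ 2 by norm_num]; exact pow_ne_zero _ h5
  have e := S_H hz v.1 v.2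
  have e2 : hf (P25 z v.1 v.2 / 25) (Q25 z v.1 v.2 / 25) =
      hf (P25 z v.1 v.2) (Q25 z v.1 v.2) / 25 ^ 4 := by
    simp only [hf]; field_simp
  rw [e2, e]
  field_simp
  ring

lemma kT_S (v : K × K) : kT (Sv z v).1 (Sv z v).2 = kT v.1 v.2 := by
  rw [kT_eq_tf, S_pow_1 hz h5, S_pow_2 hz h5]
  have h25 : (25 : K) ≠ 0 := by
    rw [show (25 : K) = 5 ^ 2 by norm_num]; exact pow_ne_zero _ h5
  have e := S_T hz v.1 v.2
  have e2 : tf (P25 z v.1 v.2 / 25) (Q25 z v.1 v.2 / 25) =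
      tf (P25 z v.1 v.2) (Q25 z v.1 v.2) / 25 ^ 6 := by
    simp only [tf]; field_simp
  rw [e2, e]
  field_simp
  ring

lemma XQ_S (v : K × K) : XQ z (Sv z v) = XP v.1 v.2 := by
  rw [XQ, S_pow_1 hz h5, S_pow_2 hz h5]
  have h25 : (25 : K) ≠ 0 := by
    rw [show (25 : K) = 5 ^ 2 by norm_num]; exact pow_ne_zero _ h5
  have e := S_X hz v.1 v.2
  have e2 : X5 z (P25 z v.1 v.2 / 25) (Q25 z v.1 v.2 / 25) =
      X5 z (P25 z v.1 v.2) (Q25 z v.1 v.2) / 25 ^ 2 := by
    simp only [X5]; field_simp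
  rw [e2, e]
  field_simp
  ring

lemma YQ_S (v : K × K) : YQ z (Sv z v) = YP v.1 v.2 := by
  rw [YQ, S_pow_1 hz h5, S_pow_2 hz h5]
  have h25 : (25 : K) ≠ 0 := by
    rw [show (25 : K) = 5 ^ 2 by norm_num]; exact pow_ne_zero _ h5
  have e := S_Y hz v.1 v.2
  have e2 : Y5 z (P25 z v.1 v.2 / 25) (Q25 z v.1 v.2 / 25) =
      Y5 z (P25 z v.1 v.2) (Q25 z v.1 v.2) / 25 ^ 3 := by
    simp only [Y5]; field_simp
  rw [e2, e]
  field_simp
  ring

lemma wv_S (v : K × K) (t : K) : wv (Sv z v) t = Sv z (wv v t) := by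
  have h25 : (25 : K) ≠ 0 := by
    rw [show (25 : K) = 5 ^ 2 by norm_num]; exact pow_ne_zero _ h5
  have e1 := S_pow_1 hz h5 v
  have e2 := S_pow_2 hz h5 v
  have e1' : (Sv z v).1 ^ 10 = (P25 z v.1 v.2 / 25) ^ 2 := by
    rw [← e1]; ring
  have e2' : (Sv z v).2 ^ 10 = (Q25 z v.1 v.2 / 25) ^ 2 := by
    rw [← e2]; ring
  have c1 := S_Cx hz v.1 v.2
  have c2 := S_Cy hz v.1 v.2
  ext
  · simp only [wv, wx, wy]
    rw [e1, e2, e1', e2']
    simp only [Sv]
    generalize P25 z v.1 v.2 = P at *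
    generalize Q25 z v.1 v.2 = Q at *
    generalize w5 z = w at *
    generalize u5 z = u at *
    field_simp
    linear_combination t * c1
  · simp only [wv, wx, wy]
    rw [e1, e2, e1', e2']
    simp only [Sv]
    generalize P25 z v.1 v.2 = P at *
    generalize Q25 z v.1 v.2 = Q at *
    generalize w5 z = w at *
    generalize u5 z = u at *
    field_simp
    linear_combination -t * c2

lemma S_S (v : K × K) : Sv z (Sv z v) = (-v.1, -v.2) := by
  have e := S_sq hz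
  ext
  · simp only [Sv]
    generalize w5 z = w at *
    generalize u5 z = u at *
    field_simp
    linear_combination v.1 * e
  · simp only [Sv]
    generalize w5 z = w at *
    generalize u5 z = u at *
    field_simp
    linear_combination v.2 * e

end

section points

variable {W : Affine K} {v v' : K × K} [W.IsElliptic] [DecidableEq K]
variable (h5 : (5 : K) ≠ 0) {z : K} (hz : z ^ 4 + z ^ 3 + z ^ 2 + z + 1 = 0)

omit [DecidableEq K] in
lemma QP_congr (h : IsK W v) (h' : IsK W v') (h1 : v'.1 ^ 5 = v.1 ^ 5) (h2 : v'.2 ^ 5 = v.2 ^ 5) :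
    QP h5 hz h' = QP h5 hz h := by
  apply some_congr
  · rw [XQ, XQ, h1, h2]
  · rw [YQ, YQ, h1, h2]

omit [DecidableEq K] in
lemma QP_T (h : IsK W v) (h' : IsK W (Tv z v)) : QP h5 hz h' = QP h5 hz h :=
  QP_congr h5 hz h h' rfl (mul_pow_five hz _)

omit [DecidableEq K] in
lemma QP_C (h : IsK W v) (h' : IsK W (Cv z v)) : QP h5 hz h' = QP h5 hz h :=
  QP_congr h5 hz h h' (mul_pow_five hz _) (mul_pow_five hz _)

include hz in
omit [DecidableEq K] in
lemma PP_C (h : IsK W v) (h' : IsK W (Cv z v)) : PP h' = PP h := by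
  have e := z_pow_five hz
  have e10 : z ^ 10 = 1 := by rw [show 10 = 5 * 2 from rfl, pow_mul, e, one_pow]
  have e15 : z ^ 15 = 1 := by rw [show 15 = 5 * 3 from rfl, pow_mul, e, one_pow]
  apply some_congr
  · have : XP (z * v.1) (z * v.2) = z ^ 10 * XP v.1 v.2 := by simp only [XP]; ring
    simp only [Cv]; rw [this, e10, one_mul]
  · have : YP (z * v.1) (z * v.2) = z ^ 15 * YP v.1 v.2 := by simp only [YP]; ring
    simp only [Cv]; rw [this, e15, one_mul]

lemma PP_T (h : IsK W v) (h' : IsK W (Tv z v)) : PP h' = PP h + QP h5 hz h := by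
  symm
  have e1 := PQ_slope hz v.1 v.2
  have e2 := PQ_slope2 hz v.1 v.2
  have e3 := PQ_X hz v.1 v.2
  have e4 := PQ_Y hz v.1 v.2
  have h25 : (25 : K) ≠ 0 := by
    rw [show (25 : K) = 5 ^ 2 by norm_num]; exact pow_ne_zero _ h5
  apply add_of_slope h (Λ := La z v)
  · simp only [La, XQ, YQ]
    field_simp
    linear_combination e1
  · simp only [La, XQ, YQ]
    field_simp
    linear_combination e2
  · simp only [La, XQ, Tv]
    field_simp
    linear_combination e3
  · simp only [La, Tv]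
    field_simp
    apply mul_left_cancel₀ h5
    linear_combination e4

omit [DecidableEq K] in
lemma QP_S (h : IsK W v) (h' : IsK W (Sv z v)) : QP h5 hz h' = PP h := by
  apply some_congr
  · exact XQ_S hz h5 v
  · exact YQ_S hz h5 v

omit [DecidableEq K] in
lemma PP_S (h : IsK W v) (h' : IsK W (Sv z v)) : PP h' = - QP h5 hz h := by
  have h'' : IsK W (Sv z (Sv z v)) := h'.of_eq (kH_S hz h5 _) (kT_S hz h5 _)
  rw [← QP_S h5 hz h' h'', QP, QP, Affine.Point.neg_some]
  apply some_congr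
  · rw [XQ, XQ, S_S hz h5]
    simp only [X5]
    ring
  · rw [YQ, S_S hz h5, Affine.negY, h.a₁, h.a₃, YQ]
    simp only [Y5]
    ring

end points

end Fermat.Agent.S52
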