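import Mathlib
import Fermat.Agent.S52.Action

set_option autoImplicit false

/-!
# Independence of `P`, `Q`; they generate the 5-torsion; transitivity of the group action
-/

namespace Fermat.Agent.S52

open WeierstrassCurve

section arith

lemma exists_inv_five {m : ℤ} (h : ¬ (5 : ℤ) ∣ m) : ∃ s : ℤ, m ^ 3 * m = 1 + 5 * s := by
  have h1 : (m ^ 3 * m) % 5 = 1 := by
    have h2 : m % 5 = 1 ∨ m % 5 = 2 ∨ m % 5 = 3 ∨ m % 5 = 4 := by omega
    rcases h2 with h2 | h2 | h2 | h2 <;> simp [pow_succ, Int.mul_emod, h2]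
  exact ⟨(m ^ 3 * m) / 5, by omega⟩

variable {G : Type*} [AddCommGroup G]

lemma zsmul_add_five {Q : G} (h : (5 : ℤ) • Q = 0) (n s : ℤ) : (n + 5 * s) • Q = n • Q := by
  rw [add_zsmul, mul_comm, mul_zsmul, h, zsmul_zero, add_zero]

lemma zsmul_congr_five {Q : G} (h : (5 : ℤ) • Q = 0) {m n : ℤ} (hmn : ∃ s, m = n + 5 * s) :
    m • Q = n • Q := by
  obtain ⟨s, rfl⟩ := hmn
  exact zsmul_add_five h n s

lemma exists_nat_five {Q : G} (h : (5 : ℤ) • Q = 0) (n : ℤ) :
    ∃ k : ℕ, (∃ s : ℤ, (k : ℤ) = n + 5 * s) ∧ (k : ℤ) • Q = n • Q := by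
  have e : (((n % 5).toNat : ℕ) : ℤ) = n + 5 * (-(n / 5)) := by
    rw [Int.toNat_of_nonneg (Int.emod_nonneg _ (by norm_num))]
    omega
  exact ⟨(n % 5).toNat, ⟨_, e⟩, by rw [e, zsmul_add_five h]⟩

end arith

variable {K : Type*} [Field K] [DecidableEq K]
variable (h5 : (5 : K) ≠ 0) {z : K} (hz : z ^ 4 + z ^ 3 + z ^ 2 + z + 1 = 0)

/-- a map acting on the pairs `(P, Q)` through a matrix and compatible with the covariant lines -/
structure Good (g : K × K → K × K) (m11 m21 m12 m22 : ℤ) : Prop where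
  hH : ∀ v, kH (g v).1 (g v).2 = kH v.1 v.2
  hT : ∀ v, kT (g v).1 (g v).2 = kT v.1 v.2
  hw : ∀ v t, wv (g v) t = g (wv v t)
  hP : ∀ (W : Affine K) [W.IsElliptic] (v : K × K) (h : IsK W v) (h' : IsK W (g v)),
    PP h' = m11 • PP h + m21 • QP h5 hz h
  hQ : ∀ (W : Affine K) [W.IsElliptic] (v : K × K) (h : IsK W v) (h' : IsK W (g v)),
    QP h5 hz h' = m12 • PP h + m22 • QP h5 hz h

variable {h5 hz}

lemma Good.isK {g : K × K → K × K} {a b c d : ℤ} (hg : Good h5 hz g a b c d) {W : Affine K}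
    {v : K × K} (h : IsK W v) : IsK W (g v) := h.of_eq (hg.hH v) (hg.hT v)

lemma Good.comp {g g' : K × K → K × K} {a b c d a' b' c' d' : ℤ} (hg : Good h5 hz g a b c d)
    (hg' : Good h5 hz g' a' b' c' d') :
    Good h5 hz (g ∘ g') (a * a' + b * c') (a * b' + b * d') (c * a' + d * c') (c * b' + d * d') where
  hH v := (hg.hH _).trans (hg'.hH _)
  hT v := (hg.hT _).trans (hg'.hT _)
  hw v t := (hg.hw _ _).trans (congrArg g (hg'.hw _ _))
  hP W _ v h h' := by
    have h1 := hg'.isK h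
    have e := hg.hP W (g' v) h1 h'
    rw [hg'.hP W v h h1, hg'.hQ W v h h1] at e
    rw [show PP (v := (g ∘ g') v) h' = PP (v := g (g' v)) h' from rfl, e]
    module
  hQ W _ v h h' := by
    have h1 := hg'.isK h
    have e := hg.hQ W (g' v) h1 h'
    rw [hg'.hP W v h h1, hg'.hQ W v h h1] at e
    rw [show QP (v := (g ∘ g') v) h5 hz h' = QP (v := g (g' v)) h5 hz h' from rfl, e]
    module

lemma good_id : Good h5 hz id 1 0 0 1 where
  hH v := rfl
  hT v := rfl
  hw v t := rfl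
  hP W _ v h h' := by rw [one_zsmul, zero_zsmul, add_zero]
  hQ W _ v h h' := by rw [one_zsmul, zero_zsmul, zero_add]

lemma good_T : Good h5 hz (Tv z) 1 1 0 1 where
  hH v := kH_T hz v
  hT v := kT_T hz v
  hw v t := wv_T hz v t
  hP W _ v h h' := by rw [one_zsmul, one_zsmul, PP_T h5 hz h h']
  hQ W _ v h h' := by rw [one_zsmul, zero_zsmul, zero_add, QP_T h5 hz h h']

lemma good_C : Good h5 hz (Cv z) 1 0 0 1 where
  hH v := kH_C hz v
  hT v := kT_C hz v
  hw v t := wv_C hz v t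
  hP W _ v h h' := by rw [one_zsmul, zero_zsmul, add_zero, PP_C hz h h']
  hQ W _ v h h' := by rw [one_zsmul, zero_zsmul, zero_add, QP_C h5 hz h h']

lemma good_S : Good h5 hz (Sv z) 0 (-1) 1 0 where
  hH v := kH_S hz h5 v
  hT v := kT_S hz h5 v
  hw v t := wv_S hz h5 v t
  hP W _ v h h' := by rw [neg_one_zsmul, zero_zsmul, zero_add, PP_S h5 hz h h']
  hQ W _ v h h' := by rw [one_zsmul, zero_zsmul, add_zero, QP_S h5 hz h h']

lemma good_T_pow (k : ℕ) : Good h5 hz ((Tv z)^[k]) 1 k 0 1 := by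
  induction k with
  | zero => exact good_id
  | succ k ih =>
    have := good_T.comp ih
    rw [← Function.iterate_succ'] at this
    convert this using 1 <;> push_cast <;> ring

lemma good_C_pow (k : ℕ) : Good h5 hz ((Cv z)^[k]) 1 0 0 1 := by
  induction k with
  | zero => exact good_id
  | succ k ih =>
    have := good_C.comp ih
    rw [← Function.iterate_succ'] at this
    convert this using 1 <;> norm_num

variable (h5 hz)

section one

variable {W : Affine K} [W.IsElliptic] {v v' : K × K}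

include h5 hz

lemma five_PP (h : IsK W v) : (5 : ℤ) • PP h = 0 := by
  have h' : IsK W (Sv z v) := good_S (h5 := h5) (hz := hz) |>.isK h
  rw [← QP_S h5 hz h h']
  exact five_QP h5 hz h'

lemma indep (h : IsK W v) {m n : ℤ} (e : m • PP h + n • QP h5 hz h = 0) :
    (5 : ℤ) ∣ m ∧ (5 : ℤ) ∣ n := by
  have hP5 := five_PP h5 hz h
  have hQ5 := five_QP h5 hz h
  have hm : (5 : ℤ) ∣ m := by
    by_contra hm
    obtain ⟨s, hs⟩ := exists_inv_five hm
    obtain ⟨k, -, hk⟩ := exists_nat_five hQ5 (m ^ 3 * n)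
    have e1 : PP h + (k : ℤ) • QP h5 hz h = 0 := by
      have e2 : PP h = (m ^ 3 * m) • PP h := by
        rw [hs, zsmul_add_five hP5, one_zsmul]
      rw [hk, e2, mul_zsmul, mul_zsmul, ← zsmul_add, e, zsmul_zero]
    have hg := good_T_pow (h5 := h5) (hz := hz) k
    have e3 := hg.hP W v h (hg.isK h)
    rw [one_zsmul, e1] at e3
    exact PP_ne_zero _ e3
  refine ⟨hm, ?_⟩
  by_contra hn
  obtain ⟨s, hs⟩ := exists_inv_five hn
  obtain ⟨r, rfl⟩ := hm
  have e1 : n • QP h5 hz h = 0 := by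
    rw [mul_comm, mul_zsmul, hP5, zsmul_zero, zero_add] at e
    exact e
  have e2 : QP h5 hz h = (n ^ 3 * n) • QP h5 hz h := by
    rw [hs, zsmul_add_five hQ5, one_zsmul]
  rw [mul_zsmul, e1, zsmul_zero] at e2
  exact QP_ne_zero h5 hz h e2

open Submodule in
omit hz [W.IsElliptic] in
lemma card_five_le : Finite (torsionBy ℤ W.Point ((5 : ℕ) : ℤ)) ∧
    Nat.card (torsionBy ℤ W.Point ((5 : ℕ) : ℤ)) ≤ 25 := by
  have h5ne : ((5 : ℕ) : K) ≠ 0 := by exact_mod_cast h5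
  have hf : W.preΨ' 5 ≠ 0 := W.preΨ'_ne_zero h5ne
  obtain ⟨hfin, hcard⟩ := S51.Count.card_le W 5 (W.preΨ' 5) hf (fun x y h h3 => by
    rw [S51.Torsion.eval_preΨ'_five]
    exact S51.Torsion.P5_eq_zero_of_five h (by exact_mod_cast h3))
  have hdeg : (W.preΨ' 5).natDegree = 12 := by
    rw [W.natDegree_preΨ' h5ne]
    rw [if_neg (by decide)]
    norm_num
  rw [hdeg] at hcard
  exact ⟨hfin, hcard⟩

open Submodule in
lemma span (h : IsK W v) (R : W.Point) (hR : (5 : ℤ) • R = 0) :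
    ∃ m n : ℤ, R = m • PP h + n • QP h5 hz h := by
  have hP5 := five_PP h5 hz h
  have hQ5 := five_QP h5 hz h
  obtain ⟨hfin, hcard⟩ := card_five_le (W := W) h5
  let f : Fin 5 × Fin 5 → torsionBy ℤ W.Point ((5 : ℕ) : ℤ) := fun i =>
    ⟨((i.1 : ℕ) : ℤ) • PP h + ((i.2 : ℕ) : ℤ) • QP h5 hz h, by
      rw [mem_torsionBy_iff, Nat.cast_ofNat, smul_add, smul_comm, hP5, smul_comm, hQ5]
      simp⟩
  have hf : Function.Injective f := by
    rintro ⟨i, j⟩ ⟨i', j'⟩ hij
    have e := congrArg Subtype.val hij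
    simp only [f] at e
    have e2 : (((i : ℕ) : ℤ) - ((i' : ℕ) : ℤ)) • PP h +
        (((j : ℕ) : ℤ) - ((j' : ℕ) : ℤ)) • QP h5 hz h = 0 := by
      have e3 := sub_eq_zero.mpr e
      rw [← e3]
      module
    obtain ⟨h1, h2⟩ := indep h5 hz h e2
    have := i.2; have := i'.2; have := j.2; have := j'.2
    ext <;> simp only <;> omega
  have hb := hf.bijective_of_nat_card_le (by simpa using hcard)
  obtain ⟨⟨i, j⟩, hij⟩ := hb.2 ⟨R, by rw [mem_torsionBy_iff]; exact_mod_cast hR⟩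
  exact ⟨_, _, (congrArg Subtype.val hij).symm⟩

/-- transitivity on the second point -/
lemma exists_good_Q (h : IsK W v) {m n : ℤ} (hmn : ¬ ((5 : ℤ) ∣ m ∧ (5 : ℤ) ∣ n)) :
    ∃ (g : K × K → K × K) (a b c d : ℤ) (hg : Good h5 hz g a b c d),
      QP h5 hz (hg.isK h) = m • PP h + n • QP h5 hz h := by
  have hP5 := five_PP h5 hz h
  have hQ5 := five_QP h5 hz h
  by_cases hm : (5 : ℤ) ∣ m
  · have hn : ¬ (5 : ℤ) ∣ n := fun hn => hmn ⟨hm, hn⟩
    obtain ⟨s, hs⟩ := exists_inv_five hn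
    obtain ⟨r, hr⟩ := hm
    -- `-k ≡ n`, `k j ≡ 1`
    obtain ⟨k, ⟨k', hk'⟩, -⟩ := exists_nat_five hQ5 (-n)
    obtain ⟨j, ⟨j', hj'⟩, -⟩ := exists_nat_five hQ5 (-n ^ 3)
    have hg := ((((good_S (h5 := h5) (hz := hz)).comp (good_T_pow k)).comp good_S).comp
      (good_T_pow j)).comp good_S
    refine ⟨_, _, _, _, _, hg, ?_⟩
    rw [hg.hQ W v h]
    congr 1
    · apply zsmul_congr_five hP5
      refine ⟨s + (-n * j' - n ^ 3 * k' + 5 * k' * j') - r, ?_⟩
      rw [hk', hj', hr]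
      linear_combination hs
    · apply zsmul_congr_five hQ5
      refine ⟨-k', ?_⟩
      rw [hk']
      ring
  · obtain ⟨s, hs⟩ := exists_inv_five hm
    -- `k ≡ m`, `k j - 1 ≡ n`
    obtain ⟨k, ⟨k', hk'⟩, -⟩ := exists_nat_five hQ5 m
    obtain ⟨j, ⟨j', hj'⟩, -⟩ := exists_nat_five hQ5 ((n + 1) * m ^ 3)
    have hg := (((good_S (h5 := h5) (hz := hz)).comp (good_T_pow k)).comp good_S).comp
      (good_T_pow j)
    refine ⟨_, _, _, _, _, hg, ?_⟩
    rw [hg.hQ W v h]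
    congr 1
    · apply zsmul_congr_five hP5
      refine ⟨k', ?_⟩
      rw [hk']
      ring
    · apply zsmul_congr_five hQ5
      refine ⟨(n + 1) * s + m * j' + k' * (n + 1) * m ^ 3 + 5 * k' * j', ?_⟩
      rw [hk', hj']
      linear_combination (n + 1) * hs

omit [DecidableEq K] in
/-- the tangent slope is determined by the point -/
lemma LQ_eq (h : IsK W v) (h' : IsK W v') (hX : XQ z v' = XQ z v) (hY : YQ z v' = YQ z v) :
    LQ z v' = LQ z v := by
  have e := Q_slope' h5 hz v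
  have e' := Q_slope' h5 hz v'
  have ha : 27 * kH v'.1 v'.2 = 27 * kH v.1 v.2 := by
    have := h.a₄.symm.trans h'.a₄
    linear_combination this
  rw [ha, hX, hY, ← e] at e'
  have hn := nonsing_Q h5 hz h
  have hY0 : YQ z v + YQ z v ≠ 0 := by
    intro h0
    rw [Affine.nonsingular_iff'] at hn
    rcases hn.2 with hh | hh
    · apply hh
      rw [h.a₁, h.a₂, h.a₄]
      rw [h0] at e
      linear_combination e
    · apply hh
      rw [h.a₁, h.a₃]
      linear_combination h0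
  exact mul_right_cancel₀ hY0 e'

/-- recovery of the fifth powers -/
lemma recover (h2 : (2 : K) ≠ 0) (h3 : (3 : K) ≠ 0) (h : IsK W v) (h' : IsK W v')
    (e : QP h5 hz h' = QP h5 hz h) : v'.1 ^ 5 = v.1 ^ 5 ∧ v'.2 ^ 5 = v.2 ^ 5 := by
  have e1 : XQ z v' = XQ z v ∧ YQ z v' = YQ z v := by
    simpa only [QP, Affine.Point.some.injEq] using e
  have e2 : XQ (z ^ 2) v' = XQ (z ^ 2) v ∧ YQ (z ^ 2) v' = YQ (z ^ 2) v := by
    have e3 : QP h5 (Phi_pow_two hz) h' = QP h5 (Phi_pow_two hz) h := by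
      rw [QP_sq h5 hz, QP_sq h5 hz, e]
    simpa only [QP, Affine.Point.some.injEq] using e3
  have l1 := LQ_eq h5 hz h h' e1.1 e1.2
  have l2 := LQ_eq h5 (Phi_pow_two hz) h h' e2.1 e2.2
  have hd := slope_det hz
  simp only [LQ, L5] at l1 l2
  rw [div_left_inj' h5] at l1 l2
  have h2250 : (-2250 : K) ≠ 0 := by
    have : (-2250 : K) = -(2 * 3 ^ 2 * 5 ^ 3) := by norm_num
    rw [this, neg_ne_zero]
    exact mul_ne_zero (mul_ne_zero h2 (pow_ne_zero _ h3)) (pow_ne_zero _ h5)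
  constructor
  · apply mul_left_cancel₀ h2250
    rw [← hd]
    linear_combination (-3 - 6 * z ^ 2 - 24 * (z ^ 2) ^ 2 + 18 * (z ^ 2) ^ 3) * l1 -
      (-3 - 6 * z - 24 * z ^ 2 + 18 * z ^ 3) * l2
  · apply mul_left_cancel₀ h2250
    rw [← hd]
    linear_combination (21 + 42 * z + 18 * z ^ 2 + 24 * z ^ 3) * l2 -
      (21 + 42 * z ^ 2 + 18 * (z ^ 2) ^ 2 + 24 * (z ^ 2) ^ 3) * l1

omit [DecidableEq K] in
lemma exists_pow_of_pow_five {x y : K} (h : x ^ 5 = y ^ 5) : ∃ i : ℕ, x = z ^ i * y := by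
  by_cases hy : y = 0
  · refine ⟨0, ?_⟩
    rw [hy, zero_pow (by norm_num), pow_eq_zero_iff (by norm_num)] at h
    rw [h, hy, mul_zero]
  · have h1 : z ≠ 1 := by
      rintro rfl
      apply h5
      linear_combination hz
    have hp : IsPrimitiveRoot z 5 := by
      have := Fact.mk Nat.prime_five
      have ho : orderOf z = 5 := orderOf_eq_prime (z_pow_five hz) h1
      rw [← ho]
      exact IsPrimitiveRoot.orderOf z
    have h2 : (x / y) ^ 5 = 1 := by
      rw [div_pow, h, div_self (pow_ne_zero _ hy)]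
    obtain ⟨i, -, hi⟩ := hp.eq_pow_of_pow_eq_one h2
    exact ⟨i, by rw [hi, div_mul_cancel₀ _ hy]⟩

omit [DecidableEq K] h5 hz in
lemma Tv_iter (k : ℕ) (v : K × K) : (Tv z)^[k] v = (v.1, z ^ k * v.2) := by
  induction k with
  | zero => simp
  | succ k ih => rw [Function.iterate_succ', Function.comp_apply, ih, Tv, pow_succ]; ext <;> simp <;> ring

omit [DecidableEq K] h5 hz in
lemma Cv_iter (k : ℕ) (v : K × K) : (Cv z)^[k] v = (z ^ k * v.1, z ^ k * v.2) := by
  induction k with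
  | zero => simp
  | succ k ih => rw [Function.iterate_succ', Function.comp_apply, ih, Cv, pow_succ]; ext <;> simp <;> ring

/-- transitivity on the fibres -/
theorem exists_good (h2 : (2 : K) ≠ 0) (h3 : (3 : K) ≠ 0) (h : IsK W v) (h' : IsK W v') :
    ∃ (g : K × K → K × K) (a b c d : ℤ), Good h5 hz g a b c d ∧ v' = g v := by
  obtain ⟨m, n, hmn⟩ := span h5 hz h (QP h5 hz h') (five_QP h5 hz h')
  have hmn5 : ¬ ((5 : ℤ) ∣ m ∧ (5 : ℤ) ∣ n) := by
    rintro ⟨⟨r, rfl⟩, ⟨s, rfl⟩⟩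
    rw [mul_comm, mul_zsmul, five_PP h5 hz h, mul_comm, mul_zsmul, five_QP h5 hz h, zsmul_zero,
      zsmul_zero, add_zero] at hmn
    exact QP_ne_zero h5 hz h' hmn
  obtain ⟨g, a, b, c, d, hg, e⟩ := exists_good_Q h5 hz h hmn5
  rw [← hmn] at e
  obtain ⟨e1, e2⟩ := recover h5 hz h2 h3 h' (hg.isK h) e
  obtain ⟨i, hi⟩ := exists_pow_of_pow_five h5 hz e1.symm
  obtain ⟨j, hj⟩ := exists_pow_of_pow_five h5 hz e2.symm
  refine ⟨_, _, _, _, _, ((good_C_pow i).comp (good_T_pow (j + 4 * i))).comp hg, ?_⟩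
  rw [Function.comp_apply, Function.comp_apply, Tv_iter, Cv_iter]
  ext
  · exact hi
  · change v'.2 = z ^ i * (z ^ (j + 4 * i) * (g v).2)
    rw [hj, ← mul_assoc, ← pow_add, show i + (j + 4 * i) = j + 5 * i by ring, pow_add, pow_mul,
      z_pow_five hz, one_pow, mul_one]

end one

end Fermat.Agent.S52
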