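import Mathlib
import Fermat.Agent.S52.Forms

set_option autoImplicit false

/-!
# Jacobian and Hessian identities between the explicit forms
-/

namespace Fermat.Agent.S52

open Polynomial

variable {R : Type*} [CommRing R]

/-- first derivative of `Dp` in `t` -/
def Dp' (a b t : R) : R :=
    (-132 * a) * t +
    (-1320 * b) * t ^ 2 +
    (-5940 * a ^ 2) * t ^ 3 +
    (-15840 * a * b) * t ^ 4 +
    (35640 * a ^ 3 - 63360 * b ^ 2) * t ^ 5 +
    (-33264 * a ^ 2 * b) * t ^ 6 +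
    (-534600 * a ^ 4 + 506880 * a * b ^ 2) * t ^ 7 +
    (-1283040 * a ^ 3 * b + 1267200 * b ^ 3) * t ^ 8 +
    (-1336500 * a ^ 5 + 1330560 * a ^ 2 * b ^ 2) * t ^ 9 +
    (-677160 * a ^ 4 * b + 675840 * a * b ^ 3) * t ^ 10 +
    (1093500 * a ^ 6 - 2322432 * a ^ 3 * b ^ 2 + 1228800 * b ^ 4) * t ^ 11

/-- second derivative of `Dp` in `t` -/
def Dp'' (a b t : R) : R :=
    (-132 * a) +
    (-2640 * b) * t +
    (-17820 * a ^ 2) * t ^ 2 +
    (-63360 * a * b) * t ^ 3 +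
    (178200 * a ^ 3 - 316800 * b ^ 2) * t ^ 4 +
    (-199584 * a ^ 2 * b) * t ^ 5 +
    (-3742200 * a ^ 4 + 3548160 * a * b ^ 2) * t ^ 6 +
    (-10264320 * a ^ 3 * b + 10137600 * b ^ 3) * t ^ 7 +
    (-12028500 * a ^ 5 + 11975040 * a ^ 2 * b ^ 2) * t ^ 8 +
    (-6771600 * a ^ 4 * b + 6758400 * a * b ^ 3) * t ^ 9 +
    (12028500 * a ^ 6 - 25546752 * a ^ 3 * b ^ 2 + 13516800 * b ^ 4) * t ^ 10

/-- first derivative of `C4p` in `t` -/
def C4p' (a b t : R) : R :=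
    (20 * b) +
    (380 * a ^ 2) * t +
    (3420 * a * b) * t ^ 2 +
    (-3420 * a ^ 3 + 22800 * b ^ 2) * t ^ 3 +
    (77520 * a ^ 2 * b) * t ^ 4 +
    (615600 * a ^ 4 - 383040 * a * b ^ 2) * t ^ 5 +
    (1819440 * a ^ 3 * b - 1276800 * b ^ 3) * t ^ 6 +
    (-8002800 * a ^ 5 + 9010560 * a ^ 2 * b ^ 2) * t ^ 7 +
    (-69624360 * a ^ 4 * b + 71136000 * a * b ^ 3) * t ^ 8 +
    (-100035000 * a ^ 6 - 56197440 * a ^ 3 * b ^ 2 + 158080000 * b ^ 4) * t ^ 9 +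
    (-601543800 * a ^ 5 * b + 603391360 * a ^ 2 * b ^ 3) * t ^ 10 +
    (-540189000 * a ^ 7 + 86430240 * a ^ 4 * b ^ 2 + 455270400 * a * b ^ 4) * t ^ 11 +
    (-456159600 * a ^ 6 * b - 301616640 * a ^ 3 * b ^ 3 + 758784000 * b ^ 5) * t ^ 12 +
    (2908710000 * a ^ 8 - 6932640960 * a ^ 5 * b ^ 2 + 4024473600 * a ^ 2 * b ^ 4) * t ^ 13 +
    (6232950000 * a ^ 7 * b - 13236877440 * a ^ 4 * b ^ 3 + 7004160000 * a * b ^ 5) * t ^ 14 +
    (-1246590000 * a ^ 9 + 11435385600 * a ^ 6 * b ^ 2 - 19527598080 * a ^ 3 * b ^ 4 + 9338880000 * b ^ 6) * t ^ 15 +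
    (6004408500 * a ^ 8 * b - 12156376320 * a ^ 5 * b ^ 3 + 6151987200 * a ^ 2 * b ^ 5) * t ^ 16 +
    (14024137500 * a ^ 10 - 39292516800 * a ^ 7 * b ^ 2 + 36475038720 * a ^ 4 * b ^ 4 - 11206656000 * a * b ^ 6) * t ^ 17 +
    (13193077500 * a ^ 9 * b - 38843867520 * a ^ 6 * b ^ 3 + 38102630400 * a ^ 3 * b ^ 5 - 12451840000 * b ^ 7) * t ^ 18 +
    (3690562500 * a ^ 11 - 10986030000 * a ^ 8 * b ^ 2 + 10899947520 * a ^ 5 * b ^ 4 - 3604480000 * a ^ 2 * b ^ 6) * t ^ 19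

lemma derivative_Dp (a b : R) : derivative (Dp (C a) (C b) X) = Dp' (C a) (C b) (X : R[X]) := by
  simp only [Dp, Dp', Dpc0, Dpc2, Dpc3, Dpc4, Dpc5, Dpc6, Dpc7, Dpc8, Dpc9, Dpc10, Dpc11, Dpc12]
  simp only [derivative_add, derivative_sub, derivative_mul, derivative_neg, derivative_C,
    derivative_pow, derivative_X, derivative_one, derivative_ofNat]
  simp only [map_ofNat, Nat.cast_ofNat, mul_zero, zero_mul, add_zero, zero_add, mul_one, sub_zero]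
  ring

lemma derivative_Dp' (a b : R) : derivative (Dp' (C a) (C b) X) = Dp'' (C a) (C b) (X : R[X]) := by
  simp only [Dp', Dp'']
  simp only [derivative_add, derivative_sub, derivative_mul, derivative_neg, derivative_C,
    derivative_pow, derivative_X, derivative_ofNat]
  simp only [map_ofNat, Nat.cast_ofNat, mul_zero, zero_mul, add_zero, zero_add, mul_one, sub_zero]
  ring

lemma derivative_C4p (a b : R) : derivative (C4p (C a) (C b) X) = C4p' (C a) (C b) (X : R[X]) := by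
  simp only [C4p, C4p', C4pc0, C4pc1, C4pc2, C4pc3, C4pc4, C4pc5, C4pc6, C4pc7, C4pc8, C4pc9, C4pc10, C4pc11, C4pc12, C4pc13, C4pc14, C4pc15, C4pc16, C4pc17, C4pc18, C4pc19, C4pc20]
  simp only [derivative_add, derivative_sub, derivative_mul, derivative_neg, derivative_C,
    derivative_pow, derivative_X, derivative_ofNat]
  simp only [map_ofNat, Nat.cast_ofNat, mul_zero, zero_mul, add_zero, zero_add, mul_one, sub_zero]
  ring

set_option maxHeartbeats 4000000 in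
/-- the Jacobian identity -/
lemma jacobian_identity (a b t : R) :
    3 * Dp a b t * C4p' a b t - 5 * Dp' a b t * C4p a b t = 60 * C6p a b t := by
  simp only [C4p, C6p, Dp, Dp', C4p', Dpc0, Dpc2, Dpc3, Dpc4, Dpc5, Dpc6, Dpc7, Dpc8, Dpc9, Dpc10, Dpc11, Dpc12,
    C4pc0, C4pc1, C4pc2, C4pc3, C4pc4, C4pc5, C4pc6, C4pc7, C4pc8, C4pc9, C4pc10, C4pc11, C4pc12, C4pc13, C4pc14, C4pc15, C4pc16, C4pc17, C4pc18, C4pc19, C4pc20,
    C6pc0, C6pc1, C6pc2, C6pc3, C6pc4, C6pc5, C6pc6, C6pc7, C6pc8, C6pc9, C6pc10, C6pc11, C6pc12, C6pc13, C6pc14, C6pc15, C6pc16, C6pc17, C6pc18, C6pc19, C6pc20, C6pc21, C6pc22, C6pc23, C6pc24, C6pc25, C6pc26, C6pc27, C6pc28, C6pc29, C6pc30]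
  ring

set_option maxHeartbeats 4000000 in
/-- the Hessian identity -/
lemma hessian_identity (a b t : R) :
    12 * Dp a b t * Dp'' a b t - 11 * Dp' a b t ^ 2 = -1584 * C4p a b t := by
  simp only [C4p, Dp, Dp', Dp'', Dpc0, Dpc2, Dpc3, Dpc4, Dpc5, Dpc6, Dpc7, Dpc8, Dpc9, Dpc10, Dpc11, Dpc12,
    C4pc0, C4pc1, C4pc2, C4pc3, C4pc4, C4pc5, C4pc6, C4pc7, C4pc8, C4pc9, C4pc10, C4pc11, C4pc12, C4pc13, C4pc14, C4pc15, C4pc16, C4pc17, C4pc18, C4pc19, C4pc20]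
  ring

/-- the Jacobian identity, polynomial version -/
lemma I4 (a b : R) : 3 * Dp (C a) (C b) X * derivative (C4p (C a) (C b) X) -
    5 * derivative (Dp (C a) (C b) X) * C4p (C a) (C b) X = 60 * C6p (C a) (C b) (X : R[X]) := by
  rw [derivative_C4p, derivative_Dp, jacobian_identity]

end Fermat.Agent.S52
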