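import Mathlib
import Fermat.Agent.S52.Klein
import Fermat.Agent.S52.Jacobian

set_option autoImplicit false

/-!
# Klein's forms on the covariant line `v + t C(v)`
-/

namespace Fermat.Agent.S52

open Polynomial

section klein

variable {R : Type*} [CommRing R]

/-- `∂f/∂x` -/
def kfx (x y : R) : R := 11 * x ^ 10 * y - 66 * x ^ 5 * y ^ 6 - y ^ 11
/-- `∂f/∂y` -/
def kfy (x y : R) : R := x ^ 11 - 66 * x ^ 6 * y ^ 5 - 11 * x * y ^ 10
/-- `∂²f/∂x²` -/
def kfxx (x y : R) : R := 110 * x ^ 9 * y - 330 * x ^ 4 * y ^ 6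
/-- `∂²f/∂x∂y` -/
def kfxy (x y : R) : R := 11 * x ^ 10 - 396 * x ^ 5 * y ^ 5 - 11 * y ^ 10
/-- `∂²f/∂y²` -/
def kfyy (x y : R) : R := -330 * x ^ 6 * y ^ 4 - 110 * x * y ^ 9
/-- `∂H/∂x` -/
def kHx (x y : R) : R :=
  20 * x ^ 19 + 3420 * x ^ 14 * y ^ 5 + 4940 * x ^ 9 * y ^ 10 - 1140 * x ^ 4 * y ^ 15
/-- `∂H/∂y` -/
def kHy (x y : R) : R :=
  1140 * x ^ 15 * y ^ 4 + 4940 * x ^ 10 * y ^ 9 - 3420 * x ^ 5 * y ^ 14 + 20 * y ^ 19

lemma klein_hessian (U V c d : R) :
    12 * kf U V * (kfxx U V * c ^ 2 + 2 * kfxy U V * c * d + kfyy U V * d ^ 2) -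
      11 * (kfx U V * c + kfy U V * d) ^ 2 = -11 * kH U V * (U * d - V * c) ^ 2 := by
  simp only [kf, kfx, kfy, kfxx, kfxy, kfyy, kH]; ring

lemma klein_jacobian (U V c d : R) :
    3 * kf U V * (kHx U V * c + kHy U V * d) - 5 * (kfx U V * c + kfy U V * d) * kH U V =
      -5 * kT U V * (U * d - V * c) := by
  simp only [kf, kfx, kfy, kH, kHx, kHy, kT]; ring

lemma derivative_kf (U V : R[X]) : derivative (kf U V) =
    kfx U V * derivative U + kfy U V * derivative V := by
  simp only [kf, kfx, kfy, derivative_add, derivative_sub, derivative_mul, derivative_pow,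
    derivative_ofNat, map_natCast, Nat.cast_ofNat]
  simp only [map_ofNat]
  ring

lemma derivative_kfx (U V : R[X]) : derivative (kfx U V) =
    kfxx U V * derivative U + kfxy U V * derivative V := by
  simp only [kfx, kfxx, kfxy, derivative_add, derivative_sub, derivative_mul, derivative_pow,
    derivative_ofNat, map_natCast, Nat.cast_ofNat]
  simp only [map_ofNat]
  ring

lemma derivative_kfy (U V : R[X]) : derivative (kfy U V) =
    kfxy U V * derivative U + kfyy U V * derivative V := by
  simp only [kfy, kfyy, kfxy, derivative_add, derivative_sub, derivative_mul, derivative_pow,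
    derivative_ofNat, map_natCast, Nat.cast_ofNat]
  simp only [map_ofNat]
  ring

lemma derivative_kH (U V : R[X]) : derivative (kH U V) =
    kHx U V * derivative U + kHy U V * derivative V := by
  simp only [kH, kHx, kHy, derivative_add, derivative_sub, derivative_mul, derivative_pow,
    derivative_ofNat, map_natCast, Nat.cast_ofNat]
  simp only [map_ofNat]
  ring

lemma kf_w_aux (p q t : R) :
    (1 + t * (p^2 - 66*p*q-11*q^2)) * (1 - t * (11*p^2 - 66*p*q-q^2)) *
    ((p * (1 + t * (p^2 - 66*p*q-11*q^2))^5) ^ 2 - 11 * (p * (1 + t * (p^2 - 66*p*q-11*q^2))^5) *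
      (q * (1 - t * (11*p^2 - 66*p*q-q^2))^5) - (q * (1 - t * (11*p^2 - 66*p*q-q^2))^5)^2) =
    (p^2 - 11*p*q-q^2) * Dp (p^4+228*p^3*q+494*p^2*q^2-228*p*q^3+q^4)
      (p^6-522*p^5*q-10005*p^4*q^2-10005*p^2*q^4+522*p*q^5+q^6) t := by
  simp only [Dp, Dpc0, Dpc2, Dpc3, Dpc4, Dpc5, Dpc6, Dpc7, Dpc8, Dpc9, Dpc10, Dpc11, Dpc12]
  ring

/-- `f(v + tC(v)) = f(v) D(t)` -/
theorem kf_w (x y t : R) : kf (wx x y t) (wy x y t) = kf x y * Dp (kH x y) (kT x y) t := by
  have h := kf_w_aux (x ^ 5) (y ^ 5) t
  have e1 : kH x y = (x^5)^4+228*(x^5)^3*(y^5)+494*(x^5)^2*(y^5)^2-228*(x^5)*(y^5)^3+(y^5)^4 := by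
    simp only [kH]; ring
  have e2 : kT x y = (x^5)^6-522*(x^5)^5*(y^5)-10005*(x^5)^4*(y^5)^2-10005*(x^5)^2*(y^5)^4+
      522*(x^5)*(y^5)^5+(y^5)^6 := by
    simp only [kT]; ring
  rw [e1, e2]
  generalize hD : Dp _ _ t = D at h ⊢
  have e3 : kf x y = x * y * ((x^5)^2 - 11*(x^5)*(y^5)-(y^5)^2) := by simp only [kf]; ring
  rw [e3, mul_assoc (x * y), ← h]
  simp only [kf, wx, wy]
  ring

/-- the constants -/
lemma wedge (x y t : R) :
    wx x y t * (-(y * (11 * x ^ 10 - 66 * x ^ 5 * y ^ 5 - y ^ 10))) -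
      wy x y t * (x * (x ^ 10 - 66 * x ^ 5 * y ^ 5 - 11 * y ^ 10)) = -12 * kf x y := by
  simp only [wx, wy, kf]; ring

end klein

section transfer

variable {R : Type*} [CommRing R]

lemma derivative_wx (x y : R) : derivative (wx (C x) (C y) X) =
    C x * (C x ^ 10 - 66 * C x ^ 5 * C y ^ 5 - 11 * C y ^ 10) := by
  simp only [wx, derivative_add, derivative_sub, derivative_mul, derivative_pow, derivative_X,
    derivative_ofNat, derivative_C, derivative_one]
  ring

lemma derivative_wy (x y : R) : derivative (wy (C x) (C y) X) =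
    -(C y * (11 * C x ^ 10 - 66 * C x ^ 5 * C y ^ 5 - C y ^ 10)) := by
  simp only [wy, derivative_sub, derivative_mul, derivative_pow, derivative_X,
    derivative_ofNat, derivative_C, derivative_one]
  ring

/-- the universal ring -/
abbrev R0 := MvPolynomial (Fin 2) ℤ

/-- first variable -/
noncomputable abbrev ux : R0 := MvPolynomial.X 0

/-- second variable -/
noncomputable abbrev uy : R0 := MvPolynomial.X 1

lemma kf_universal_ne_zero : kf (C ux) (C uy) ≠ 0 := by
  intro h
  have h2 := congrArg (Polynomial.eval₂RingHom (MvPolynomial.aeval (R := ℤ) 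
    (fun _ : Fin 2 => (1:ℤ))).toRingHom 0) h
  simp only [kf, map_mul, map_sub, map_pow, map_ofNat, map_zero, Polynomial.coe_eval₂RingHom,
    Polynomial.eval₂_C, AlgHom.toRingHom_eq_coe, RingHom.coe_coe, MvPolynomial.aeval_X] at h2
  norm_num at h2

lemma map_kf {S : Type*} [CommRing S] (φ : R →+* S) (x y : R) : φ (kf x y) = kf (φ x) (φ y) := by
  simp only [kf, map_mul, map_sub, map_pow, map_ofNat]

lemma map_kH {S : Type*} [CommRing S] (φ : R →+* S) (x y : R) : φ (kH x y) = kH (φ x) (φ y) := by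
  simp only [kH, map_add, map_mul, map_sub, map_pow, map_ofNat]

lemma map_kT {S : Type*} [CommRing S] (φ : R →+* S) (x y : R) : φ (kT x y) = kT (φ x) (φ y) := by
  simp only [kT, map_add, map_mul, map_sub, map_pow, map_ofNat]

lemma map_wx {S : Type*} [CommRing S] (φ : R →+* S) (x y t : R) :
    φ (wx x y t) = wx (φ x) (φ y) (φ t) := by
  simp only [wx, map_add, map_mul, map_sub, map_pow, map_ofNat, map_one]

lemma map_wy {S : Type*} [CommRing S] (φ : R →+* S) (x y t : R) :
    φ (wy x y t) = wy (φ x) (φ y) (φ t) := by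
  simp only [wy, map_mul, map_sub, map_pow, map_ofNat, map_one]

/-- the Hessian relation before cancellation -/
lemma kH_w_aux (x y : R) : kf (C x) (C y) ^ 2 *
    (1584 * kH (wx (C x) (C y) X) (wy (C x) (C y) (X : R[X]))) =
    kf (C x) (C y) ^ 2 * (1584 * C4p (C (kH x y)) (C (kT x y)) X) := by
  have hF : kf (wx (C x) (C y) X) (wy (C x) (C y) (X : R[X])) =
      kf (C x) (C y) * Dp (C (kH x y)) (C (kT x y)) X := by
    rw [kf_w, map_kH, map_kT]
  have hk : kf (C x) (C y) = C (kf x y) := (map_kf C x y).symm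
  have hF' := congrArg derivative hF
  rw [derivative_kf, hk, derivative_C_mul, derivative_Dp, ← hk] at hF'
  have hF'' := congrArg derivative hF'
  have hx0 : derivative (derivative (wx (C x) (C y) (X : R[X]))) = 0 := by
    rw [derivative_wx]
    simp only [derivative_sub, derivative_mul, derivative_pow, derivative_ofNat, derivative_C]
    ring
  have hy0 : derivative (derivative (wy (C x) (C y) (X : R[X]))) = 0 := by
    rw [derivative_wy]
    simp only [derivative_neg, derivative_sub, derivative_mul, derivative_pow, derivative_ofNat,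
      derivative_C]
    ring
  rw [hk, derivative_C_mul, derivative_Dp', ← hk, derivative_add, derivative_mul, derivative_mul,
    derivative_kfx, derivative_kfy, hx0, hy0] at hF''
  have hw := wedge (C x) (C y) (X : R[X])
  rw [← derivative_wx, ← derivative_wy] at hw
  have hH := klein_hessian (wx (C x) (C y) X) (wy (C x) (C y) (X : R[X]))
    (derivative (wx (C x) (C y) X)) (derivative (wy (C x) (C y) X))
  have hHe := hessian_identity (C (kH x y)) (C (kT x y)) (X : R[X])
  generalize derivative (wx (C x) (C y) (X : R[X])) = c at *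
  generalize derivative (wy (C x) (C y) (X : R[X])) = d at *
  generalize wx (C x) (C y) (X : R[X]) = U at *
  generalize wy (C x) (C y) (X : R[X]) = V at *
  rw [hw, hF', hF] at hH
  have e : kfxx U V * c ^ 2 + 2 * kfxy U V * c * d + kfyy U V * d ^ 2 =
    kf (C x) (C y) * Dp'' (C (kH x y)) (C (kT x y)) X := by
    rw [← hF'']; ring
  rw [e] at hH
  linear_combination hH - kf (C x) (C y) ^ 2 * hHe

/-- `H(v + tC(v))` -/
lemma kH_w_univ : kH (wx (C ux) (C uy) X)
      (wy (C ux) (C uy) (X : R0[X])) =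
    C4p (C (kH ux uy)) 
      (C (kT ux uy)) X := by
  have h := kH_w_aux ux uy
  have h2 := mul_left_cancel₀ (pow_ne_zero 2 kf_universal_ne_zero) h
  exact mul_left_cancel₀ (by norm_num) h2

/-- the Jacobian relation before cancellation -/
lemma kT_w_univ : kT (wx (C ux) (C uy) X)
      (wy (C ux) (C uy) (X : R0[X])) =
    C6p (C (kH ux uy)) 
      (C (kT ux uy)) X := by
  have hH := kH_w_univ
  generalize hx : (ux) = x at *
  generalize hy : (uy) = y at *
  have hF : kf (wx (C x) (C y) X) (wy (C x) (C y) (X : R0[X])) =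
      kf (C x) (C y) * Dp (C (kH x y)) (C (kT x y)) X := by
    rw [kf_w, map_kH, map_kT]
  have hk : kf (C x) (C y) = C (kf x y) := (map_kf C x y).symm
  have hF' := congrArg derivative hF
  rw [derivative_kf, hk, derivative_C_mul, derivative_Dp, ← hk] at hF'
  have hH' := congrArg derivative hH
  rw [derivative_kH, derivative_C4p] at hH'
  have hw := wedge (C x) (C y) (X : R0[X])
  rw [← derivative_wx, ← derivative_wy] at hw
  have hJ := klein_jacobian (wx (C x) (C y) X) (wy (C x) (C y) (X : R0[X]))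
    (derivative (wx (C x) (C y) X)) (derivative (wy (C x) (C y) X))
  have hJe := jacobian_identity (C (kH x y)) (C (kT x y)) (X : R0[X])
  have hne : kf (C x) (C y) ≠ 0 := by
    subst hx hy
    exact kf_universal_ne_zero
  generalize derivative (wx (C x) (C y) (X : R0[X])) = c at *
  generalize derivative (wy (C x) (C y) (X : R0[X])) = d at *
  generalize wx (C x) (C y) (X : R0[X]) = U at *
  generalize wy (C x) (C y) (X : R0[X]) = V at *
  rw [hw, hF', hF, hH', hH] at hJ
  have h60 : kf (C x) (C y) * 60 ≠ 0 := mul_ne_zero hne (by norm_num)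
  apply mul_left_cancel₀ h60
  linear_combination -hJ + kf (C x) (C y) * hJe

variable {S : Type*} [CommRing S]

/-- evaluation from the universal ring -/
noncomputable def univEv (x y t : S) : R0[X] →+* S :=
  Polynomial.eval₂RingHom (MvPolynomial.eval₂Hom (Int.castRingHom S) ![x, y]) t

lemma univEv_0 (x y t : S) : univEv x y t (C ux) = x := by
  simp [univEv]

lemma univEv_1 (x y t : S) : univEv x y t (C uy) = y := by
  simp [univEv]

lemma univEv_X (x y t : S) : univEv x y t X = t := by
  simp [univEv]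

theorem kH_w (x y t : S) : kH (wx x y t) (wy x y t) = C4p (kH x y) (kT x y) t := by
  have h := congrArg (univEv x y t) kH_w_univ
  simpa only [map_kH, map_kT, map_wx, map_wy, map_C4p, univEv_0, univEv_1, univEv_X] using h

theorem kT_w (x y t : S) : kT (wx x y t) (wy x y t) = C6p (kH x y) (kT x y) t := by
  have h := congrArg (univEv x y t) kT_w_univ
  simpa only [map_kH, map_kT, map_wx, map_wy, map_C6p, univEv_0, univEv_1, univEv_X] using h

end transfer

end Fermat.Agent.S52
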