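import Mathlib
import Fermat.Agent.S52.Covariant

set_option autoImplicit false

/-!
# Existence of `v` with prescribed invariants; the interface lemma (I2)
-/

namespace Fermat.Agent.S52

open Polynomial

section parity

variable {R : Type*} [CommRing R]

lemma Dp_parity (a b t : R) : Dp a (-b) (-t) = Dp a b t := by
  simp only [Dp, Dpc0, Dpc2, Dpc3, Dpc4, Dpc5, Dpc6, Dpc7, Dpc8, Dpc9, Dpc10, Dpc11, Dpc12]
  ring

lemma C4p_parity (a b t : R) : C4p a (-b) (-t) = C4p a b t := by
  simp only [C4p, C4pc0, C4pc1, C4pc2, C4pc3, C4pc4, C4pc5, C4pc6, C4pc7, C4pc8, C4pc9, C4pc10,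
    C4pc11, C4pc12, C4pc13, C4pc14, C4pc15, C4pc16, C4pc17, C4pc18, C4pc19, C4pc20]
  ring

lemma C6p_parity (a b t : R) : C6p a (-b) (-t) = -C6p a b t := by
  simp only [C6p, C6pc0, C6pc1, C6pc2, C6pc3, C6pc4, C6pc5, C6pc6, C6pc7, C6pc8, C6pc9, C6pc10,
    C6pc11, C6pc12, C6pc13, C6pc14, C6pc15, C6pc16, C6pc17, C6pc18, C6pc19, C6pc20, C6pc21,
    C6pc22, C6pc23, C6pc24, C6pc25, C6pc26, C6pc27, C6pc28, C6pc29, C6pc30]
  ring

lemma kH_scale (l x y : R) : kH (l * x) (l * y) = l ^ 20 * kH x y := by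
  simp only [kH]; ring

lemma kT_scale (l x y : R) : kT (l * x) (l * y) = l ^ 30 * kT x y := by
  simp only [kT]; ring

end parity

section field

variable {K : Type*} [Field K]

lemma eq_zero_of_kf_kH (h5 : (5 : K) ≠ 0) {x y : K} (hf : kf x y = 0) (hH : kH x y = 0) :
    x = 0 ∧ y = 0 := by
  have h1 : x = 0 → x = 0 ∧ y = 0 := by
    rintro rfl
    refine ⟨rfl, ?_⟩
    have : y ^ 20 = 0 := by rw [← hH]; simp only [kH]; ring
    exact (pow_eq_zero_iff (by norm_num)).mp this
  have h2 : y = 0 → x = 0 ∧ y = 0 := by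
    rintro rfl
    refine ⟨?_, rfl⟩
    have : x ^ 20 = 0 := by rw [← hH]; simp only [kH]; ring
    exact (pow_eq_zero_iff (by norm_num)).mp this
  rw [kf, mul_eq_zero, mul_eq_zero] at hf
  rcases hf with (hf | hf) | hf
  · exact h1 hf
  · exact h2 hf
  · have : 5 ^ 5 * (x * y) ^ 10 = 0 := by
      rw [← hH]; simp only [kH]
      linear_combination -(x ^ 10 - 11 * x ^ 5 * y ^ 5 - y ^ 10 + 250 * x ^ 5 * y ^ 5) * hf
    rw [mul_eq_zero, pow_eq_zero_iff (by norm_num), pow_eq_zero_iff (by norm_num),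
      mul_eq_zero] at this
    rcases this with h | h | h
    · exact absurd h h5
    · exact h1 h
    · exact h2 h

lemma natDegree_kH : (kH (X : K[X]) 1).natDegree = 20 := by
  simp only [kH, one_pow, mul_one]; compute_degree!

lemma monic_kH : (kH (X : K[X]) 1).Monic := by
  simp only [kH, one_pow, mul_one]; monicity!

lemma natDegree_kT : (kT (X : K[X]) 1).natDegree = 30 := by
  simp only [kT, one_pow, mul_one]; compute_degree!

lemma monic_kT : (kT (X : K[X]) 1).Monic := by
  simp only [kT, one_pow, mul_one]; monicity!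

/-- existence of a vector with given invariants -/
theorem exists_vec [IsAlgClosed K] (h5 : (5 : K) ≠ 0) (h1728 : (1728 : K) ≠ 0) {a b : K}
    (hab : a ^ 3 ≠ b ^ 2) :
    ∃ x y : K, kH x y = a ∧ kT x y = b := by
  set P : K[X] := C (a ^ 3) * kT X 1 ^ 2 - C (b ^ 2) * kH X 1 ^ 3 with hP
  have hc : P.coeff 60 = a ^ 3 - b ^ 2 := by
    have e1 : (kT (X : K[X]) 1 ^ 2).coeff 60 = 1 := by
      have := (monic_kT (K := K)).pow 2
      rw [Monic, leadingCoeff, monic_kT.natDegree_pow, natDegree_kT] at this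
      exact this
    have e2 : (kH (X : K[X]) 1 ^ 3).coeff 60 = 1 := by
      have := (monic_kH (K := K)).pow 3
      rw [Monic, leadingCoeff, monic_kH.natDegree_pow, natDegree_kH] at this
      exact this
    rw [hP, coeff_sub, coeff_C_mul, coeff_C_mul, e1, e2, mul_one, mul_one]
  have hdeg : P.degree ≠ 0 := by
    intro h
    have h1 : P.natDegree = 0 := natDegree_eq_zero_iff_degree_le_zero.mpr h.le
    have h2 : P.coeff 60 = 0 := coeff_eq_zero_of_natDegree_lt (by omega)
    rw [hc] at h2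
    exact hab (sub_eq_zero.mp h2)
  obtain ⟨z, hz⟩ := IsAlgClosed.exists_root P hdeg
  have hz' : a ^ 3 * kT z 1 ^ 2 = b ^ 2 * kH z 1 ^ 3 := by
    have e3 : ∀ u : K[X], eval z u = evalRingHom z u := fun _ => rfl
    rw [IsRoot, e3, hP] at hz
    simp only [map_sub, map_mul, map_pow, map_kT, map_kH] at hz
    simp only [coe_evalRingHom, eval_C, eval_X, eval_one] at hz
    exact sub_eq_zero.mp hz
  have hsyz := klein_syzygy z (1 : K)
  have key : ∀ l : K, l ^ 20 * kH z 1 = a → l ^ 30 * kT z 1 = b →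
      ∃ x y : K, kH x y = a ∧ kT x y = b := by
    intro l h1 h2
    exact ⟨l * z, l * 1, by rw [kH_scale, h1], by rw [kT_scale, h2]⟩
  have root : ∀ (c : K) (n : ℕ), n ≠ 0 → ∃ l : K, l ^ n = c := fun c n hn =>
    IsAlgClosed.exists_pow_nat_eq c (Nat.pos_of_ne_zero hn)
  by_cases hH : kH z 1 = 0
  · have hT : kT z 1 ≠ 0 := by
      intro hT
      rw [hH, hT] at hsyz
      have h3 : kf z 1 = 0 := by
        have : 1728 * kf z 1 ^ 5 = 0 := by rw [← hsyz]; ring
        rcases mul_eq_zero.mp this with h | h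
        · exact absurd h h1728
        · exact (pow_eq_zero_iff (by norm_num)).mp h
      exact one_ne_zero (eq_zero_of_kf_kH h5 h3 hH).2
    have ha : a = 0 := by
      rw [hH] at hz'
      have : a ^ 3 * kT z 1 ^ 2 = 0 := by rw [hz']; ring
      rcases mul_eq_zero.mp this with h | h
      · exact (pow_eq_zero_iff (by norm_num)).mp h
      · exact absurd ((pow_eq_zero_iff (by norm_num)).mp h) hT
    obtain ⟨l, hl⟩ := root (b / kT z 1) 30 (by norm_num)
    exact key l (by rw [hH, ha, mul_zero]) (by rw [hl, div_mul_cancel₀ _ hT])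
  by_cases hT : kT z 1 = 0
  · have hb : b = 0 := by
      rw [hT] at hz'
      have : b ^ 2 * kH z 1 ^ 3 = 0 := by rw [← hz']; ring
      rcases mul_eq_zero.mp this with h | h
      · exact (pow_eq_zero_iff (by norm_num)).mp h
      · exact absurd ((pow_eq_zero_iff (by norm_num)).mp h) hH
    obtain ⟨l, hl⟩ := root (a / kH z 1) 20 (by norm_num)
    exact key l (by rw [hl, div_mul_cancel₀ _ hH]) (by rw [hT, hb, mul_zero])
  have ha : a ≠ 0 := by
    rintro rfl
    have : b ^ 2 * kH z 1 ^ 3 = 0 := by rw [← hz']; ring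
    rcases mul_eq_zero.mp this with h | h
    · apply hab; rw [h]; ring
    · exact hH ((pow_eq_zero_iff (by norm_num)).mp h)
  obtain ⟨l, hl⟩ := root (b * kH z 1 / (a * kT z 1)) 10 (by norm_num)
  apply key l
  · rw [show 20 = 10 * 2 from rfl, pow_mul, hl]
    field_simp
    linear_combination -hz'
  · rw [show 30 = 10 * 3 from rfl, pow_mul, hl]
    field_simp
    linear_combination -b * hz'

theorem I2_aux [IsAlgClosed K] (h30 : (30 : K) ≠ 0) {a b t : K} (hab : a ^ 3 ≠ b ^ 2)
    (hD : Dp a b t = 0) : C4p a b t ≠ 0 := by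
  have h2 : (2 : K) ≠ 0 := fun h => h30 (by rw [show (30 : K) = 2 * 15 by norm_num, h, zero_mul])
  have h3 : (3 : K) ≠ 0 := fun h => h30 (by rw [show (30 : K) = 3 * 10 by norm_num, h, zero_mul])
  have h5 : (5 : K) ≠ 0 := fun h => h30 (by rw [show (30 : K) = 5 * 6 by norm_num, h, zero_mul])
  have h1728 : (1728 : K) ≠ 0 := by
    rw [show (1728 : K) = 2 ^ 6 * 3 ^ 3 by norm_num]
    exact mul_ne_zero (pow_ne_zero _ h2) (pow_ne_zero _ h3)
  obtain ⟨x, y, hH, hT⟩ := exists_vec h5 h1728 (a := a) (b := -b) (by rwa [neg_sq])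
  intro hC
  have e1 := kf_w x y (-t)
  have e2 := kH_w x y (-t)
  rw [hH, hT, Dp_parity, hD, mul_zero] at e1
  rw [hH, hT, C4p_parity, hC] at e2
  obtain ⟨e3, e4⟩ := eq_zero_of_kf_kH h5 e1 e2
  have e5 := wedge x y (-t)
  rw [e3, e4] at e5
  have h12 : (-12 : K) ≠ 0 := by
    rw [show (-12 : K) = -(2 ^ 2 * 3) by norm_num, neg_ne_zero]
    exact mul_ne_zero (pow_ne_zero _ h2) h3
  have e6 : kf x y = 0 := by
    have : (-12 : K) * kf x y = 0 := by rw [← e5]; ring
    exact (mul_eq_zero.mp this).resolve_left h12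
  have e7 := klein_syzygy x y
  rw [hH, hT, e6] at e7
  apply hab
  linear_combination e7

/-- (I2) -/
theorem I2 (h30 : (30 : K) ≠ 0) {a b t : K} (hab : a ^ 3 ≠ b ^ 2)
    (hD : Dp a b t = 0) : C4p a b t ≠ 0 := by
  let φ := algebraMap K (AlgebraicClosure K)
  have hφ : Function.Injective φ := φ.injective
  intro hC
  apply I2_aux (K := AlgebraicClosure K) (a := φ a) (b := φ b) (t := φ t)
  · intro h
    apply h30
    apply hφ
    rw [map_ofNat, map_zero, h]
  · intro h
    apply hab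
    apply hφ
    rw [map_pow, map_pow, h]
  · rw [← map_Dp, hD, map_zero]
  · rw [← map_C4p, hC, map_zero]

end field

end Fermat.Agent.S52
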