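import Mathlib
import Fermat.Agent.S52.Indep
import Fermat.Agent.S52.Vec
import Fermat.Agent.S52.Identities
import Fermat.Agent.FrobChar.Main

set_option autoImplicit false

/-!
# Interface lemma (I3): congruence of point counts along the family
-/

namespace Fermat.Agent.S52

open WeierstrassCurve

section abstract_lemma

variable {G G' : Type*} [AddCommGroup G] [AddCommGroup G']

lemma trace_congr {P Q : G} {P' Q' : G'} (φ : G →+ G) (φ' : G' →+ G') {a b c d q t t' : ℤ}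
    (hP : φ P = a • P + b • Q) (hQ : φ Q = c • P + d • Q)
    (hP' : φ' P' = a • P' + b • Q') (hQ' : φ' Q' = c • P' + d • Q')
    (ind : ∀ m n : ℤ, m • P + n • Q = 0 → (5 : ℤ) ∣ m ∧ (5 : ℤ) ∣ n)
    (ind' : ∀ m n : ℤ, m • P' + n • Q' = 0 → (5 : ℤ) ∣ m ∧ (5 : ℤ) ∣ n)
    (hc : φ (φ Q) - t • φ Q + q • Q = 0) (hc' : φ' (φ' Q') - t' • φ' Q' + q • Q' = 0)
    (hne : ¬ ((5 : ℤ) ∣ c ∧ (5 : ℤ) ∣ d)) : (5 : ℤ) ∣ t - t' := by
  rw [hQ, map_add, map_zsmul, map_zsmul, hP, hQ] at hc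
  rw [hQ', map_add, map_zsmul, map_zsmul, hP', hQ'] at hc'
  have e1 := ind (c * a + d * c - t * c) (c * b + d * d - t * d + q) (by rw [← hc]; module)
  have e2 := ind' (c * a + d * c - t' * c) (c * b + d * d - t' * d + q) (by rw [← hc']; module)
  have h1 : (5 : ℤ) ∣ c * (t - t') := by
    have e : c * (t - t') = (c * a + d * c - t' * c) - (c * a + d * c - t * c) := by ring
    rw [e]; exact dvd_sub e2.1 e1.1
  have h2 : (5 : ℤ) ∣ d * (t - t') := by
    have e : d * (t - t') = (c * b + d * d - t' * d + q) - (c * b + d * d - t * d + q) := by ring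
    rw [e]; exact dvd_sub e2.2 e1.2
  have h5 : Prime (5 : ℤ) := Int.prime_iff_natAbs_prime.mpr Nat.prime_five
  by_contra hcon
  exact hne ⟨(h5.dvd_or_dvd h1).resolve_right hcon, (h5.dvd_or_dvd h2).resolve_right hcon⟩

end abstract_lemma

section maps

variable {K : Type*} [Field K] {L : Type*} [Field L]

/-- image of a vector -/
def mapv (φ : K →+* L) (v : K × K) : L × L := (φ v.1, φ v.2)

lemma map_XP (φ : K →+* L) (v : K × K) : φ (XP v.1 v.2) = XP (mapv φ v).1 (mapv φ v).2 := by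
  simp only [XP, mapv, map_add, map_sub, map_mul, map_pow, map_ofNat]

lemma map_YP (φ : K →+* L) (v : K × K) : φ (YP v.1 v.2) = YP (mapv φ v).1 (mapv φ v).2 := by
  simp only [YP, mapv, map_add, map_mul, map_pow, map_ofNat]

lemma map_XQ (φ : K →+* L) (z : K) (v : K × K) : φ (XQ z v) = XQ (φ z) (mapv φ v) := by
  simp only [XQ, X5, mapv, map_div₀, map_neg, map_add, map_sub, map_mul, map_pow, map_ofNat]

lemma map_YQ (φ : K →+* L) (z : K) (v : K × K) : φ (YQ z v) = YQ (φ z) (mapv φ v) := by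
  simp only [YQ, Y5, mapv, map_div₀, map_neg, map_add, map_sub, map_mul, map_pow, map_ofNat]

lemma map_Phi (φ : K →+* L) {z : K} (hz : z ^ 4 + z ^ 3 + z ^ 2 + z + 1 = 0) :
    (φ z) ^ 4 + (φ z) ^ 3 + (φ z) ^ 2 + φ z + 1 = 0 := by
  have := congrArg φ hz
  simpa only [map_add, map_pow, map_one, map_zero] using this

end maps

section conj

variable {K : Type*} [Field K] {W : Affine K} [W.IsElliptic] {v v' : K × K}
  (h5 : (5 : K) ≠ 0) {z : K} (hz : z ^ 4 + z ^ 3 + z ^ 2 + z + 1 = 0)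

lemma QP_zcongr {z' : K} (hz' : z' ^ 4 + z' ^ 3 + z' ^ 2 + z' + 1 = 0) (e : z' = z)
    (h : IsK W v) : QP h5 hz' h = QP h5 hz h := by
  subst e; rfl

lemma QP_vcongr (e : v' = v) (h : IsK W v) (h' : IsK W v') : QP h5 hz h' = QP h5 hz h := by
  subst e; rfl

lemma PP_vcongr (e : v' = v) (h : IsK W v) (h' : IsK W v') : PP h' = PP h := by
  subst e; rfl

variable [DecidableEq K]

lemma QP_pow {n : ℕ} (hn : ¬ 5 ∣ n) {z' : K} (hz' : z' ^ 4 + z' ^ 3 + z' ^ 2 + z' + 1 = 0)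
    (e : z' = z ^ n) (h : IsK W v) : QP h5 hz' h = (n : ℤ) • QP h5 hz h := by
  have h5Q := five_QP h5 hz h
  have e1 : z ^ n = z ^ (n % 5) := by
    conv_lhs => rw [← Nat.div_add_mod n 5, pow_add, pow_mul, z_pow_five hz, one_pow, one_mul]
  rw [e1] at e
  have q2 := QP_sq h5 hz h
  have q4 := QP_sq h5 (Phi_pow_two hz) h
  have q8 := QP_sq h5 (Phi_pow_two (Phi_pow_two hz)) h
  rw [q2, ← mul_zsmul] at q4
  rw [q4, ← mul_zsmul] at q8
  have hn' : n % 5 = 1 ∨ n % 5 = 2 ∨ n % 5 = 3 ∨ n % 5 = 4 := by omega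
  rcases hn' with hn' | hn' | hn' | hn'
  · rw [hn'] at e
    rw [QP_zcongr h5 hz hz' (by rw [e, pow_one]) h]
    have : (n : ℤ) = 1 + 5 * (n / 5 : ℕ) := by omega
    rw [this, zsmul_add_five h5Q, one_zsmul]
  · rw [hn'] at e
    rw [QP_zcongr h5 (Phi_pow_two hz) hz' e h, q2]
    have : (n : ℤ) = 2 + 5 * (n / 5 : ℕ) := by omega
    rw [this, zsmul_add_five h5Q]
  · rw [hn'] at e
    rw [QP_zcongr h5 (Phi_pow_two (Phi_pow_two (Phi_pow_two hz))) hz' (by
      rw [e]; have := z_pow_five hz; linear_combination -z ^ 3 * this) h, q8]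
    have : (n : ℤ) = 2 * (2 * 2) + 5 * ((n / 5 : ℕ) - 1) := by omega
    rw [this, zsmul_add_five h5Q]
  · rw [hn'] at e
    rw [QP_zcongr h5 (Phi_pow_two (Phi_pow_two hz)) hz' (by rw [e]; ring) h, q4]
    have : (n : ℤ) = 2 * 2 + 5 * (n / 5 : ℕ) := by omega
    rw [this, zsmul_add_five h5Q]

end conj

section frob

open FrobChar

variable {F : Type*} [Field F] [Fintype F] {M : Type*} [Field M] [Algebra F M] [DecidableEq M]
  {W : Affine F} [WeierstrassCurve.IsElliptic (W⁄M)] {v v' : M × M}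
  (h5 : (5 : M) ≠ 0) {z : M} (hz : z ^ 4 + z ^ 3 + z ^ 2 + z + 1 = 0)

/-- Frobenius on vectors -/
def frv (F : Type*) [Field F] [Fintype F] {M : Type*} [Field M] [Algebra F M] (v : M × M) : M × M :=
  mapv (FiniteField.frobeniusAlgHom F M : M →+* M) v

lemma frobPt_PP (h : IsK (W⁄M) v) (h' : IsK (W⁄M) (frv F v)) : frobPt W (PP h) = PP h' := by
  obtain ⟨h2, e⟩ := frobPt_some (L := M) W (nonsing_P h)
  rw [PP, e]
  exact some_congr (map_XP (FiniteField.frobeniusAlgHom F M : M →+* M) v)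
    (map_YP (FiniteField.frobeniusAlgHom F M : M →+* M) v)

lemma frobPt_QP (hq : ¬ 5 ∣ Fintype.card F) (h : IsK (W⁄M) v) (h' : IsK (W⁄M) (frv F v)) :
    frobPt W (QP h5 hz h) = (Fintype.card F : ℤ) • QP h5 hz h' := by
  rw [← QP_pow h5 hz hq (map_Phi (FiniteField.frobeniusAlgHom F M : M →+* M) hz) rfl h']
  obtain ⟨h2, e⟩ := frobPt_some (L := M) W (nonsing_Q h5 hz h)
  rw [QP, e]
  exact some_congr (map_XQ (FiniteField.frobeniusAlgHom F M : M →+* M) z v)
    (map_YQ (FiniteField.frobeniusAlgHom F M : M →+* M) z v)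

lemma frv_wv (v : M × M) (s : F) : frv F (wv v (algebraMap F M s)) = wv (frv F v) (algebraMap F M s) := by
  have hs : (FiniteField.frobeniusAlgHom F M : M →+* M) (algebraMap F M s) = algebraMap F M s :=
    (FiniteField.frobeniusAlgHom F M).commutes s
  ext
  · change (FiniteField.frobeniusAlgHom F M : M →+* M) (wx v.1 v.2 (algebraMap F M s)) = _
    rw [map_wx, hs]; rfl
  · change (FiniteField.frobeniusAlgHom F M : M →+* M) (wy v.1 v.2 (algebraMap F M s)) = _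
    rw [map_wy, hs]; rfl

lemma frv_isK (h : IsK (W⁄M) v) {a b : F} (ha : kH v.1 v.2 = algebraMap F M a)
    (hb : kT v.1 v.2 = algebraMap F M b) : IsK (W⁄M) (frv F v) := by
  have hs : ∀ s : F, (FiniteField.frobeniusAlgHom F M : M →+* M) (algebraMap F M s) =
    algebraMap F M s := fun s => (FiniteField.frobeniusAlgHom F M).commutes s
  apply h.of_eq
  · simp only [frv, mapv]
    rw [← map_kH, ha, hs]
  · simp only [frv, mapv]
    rw [← map_kT, hb, hs]

theorem count_congr (h2 : (2 : F) ≠ 0) (h3 : (3 : F) ≠ 0) (h5 : (5 : F) ≠ 0)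
    (W W' : Affine F) [W.IsElliptic] [W'.IsElliptic] {a b a' b' s : F}
    (hW : W.a₁ = 0 ∧ W.a₂ = 0 ∧ W.a₃ = 0 ∧ W.a₄ = -27 * a ∧ W.a₆ = 54 * b)
    (hW' : W'.a₁ = 0 ∧ W'.a₂ = 0 ∧ W'.a₃ = 0 ∧ W'.a₄ = -27 * a' ∧ W'.a₆ = 54 * b')
    (hab : a ^ 3 ≠ b ^ 2) (ha' : a' = C4p a b s) (hb' : b' = C6p a b s) :
    (5 : ℤ) ∣ (Nat.card W.Point : ℤ) - Nat.card W'.Point := by
  classical
  let M := AlgebraicClosure F
  have hinj : Function.Injective (algebraMap F M) := (algebraMap F M).injective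
  have m2 : (2 : M) ≠ 0 := fun h => h2 (hinj (by rw [map_ofNat, map_zero, h]))
  have m3 : (3 : M) ≠ 0 := fun h => h3 (hinj (by rw [map_ofNat, map_zero, h]))
  have m5 : (5 : M) ≠ 0 := fun h => h5 (hinj (by rw [map_ofNat, map_zero, h]))
  have m1728 : (1728 : M) ≠ 0 := by
    rw [show (1728 : M) = 2 ^ 6 * 3 ^ 3 by norm_num]
    exact mul_ne_zero (pow_ne_zero _ m2) (pow_ne_zero _ m3)
  have hq5 : ¬ 5 ∣ Fintype.card F := by
    intro h
    apply h5
    obtain ⟨p, hp⟩ := CharP.exists F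
    obtain ⟨n, hpp, hn⟩ := FiniteField.card F p
    rw [hn] at h
    have := Nat.Prime.dvd_of_dvd_pow Nat.prime_five h
    rw [Nat.prime_dvd_prime_iff_eq Nat.prime_five hpp] at this
    subst this
    exact_mod_cast CharP.cast_eq_zero F 5
  have : WeierstrassCurve.IsElliptic (W⁄M) := by
    change WeierstrassCurve.IsElliptic (W.map (algebraMap F M))
    infer_instance
  have : WeierstrassCurve.IsElliptic (W'⁄M) := by
    change WeierstrassCurve.IsElliptic (W'.map (algebraMap F M))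
    infer_instance
  obtain ⟨x, y, hH, hT⟩ := exists_vec m5 m1728 (a := algebraMap F M a) (b := algebraMap F M b) (by
    intro h
    rw [← map_pow, ← map_pow] at h
    exact hab (hinj h))
  obtain ⟨z, hz⟩ : ∃ z : M, z ^ 4 + z ^ 3 + z ^ 2 + z + 1 = 0 := by
    have hd : (Polynomial.X ^ 4 + Polynomial.X ^ 3 + Polynomial.X ^ 2 + Polynomial.X + 1 :
        Polynomial M).degree ≠ 0 := by
      have : (Polynomial.X ^ 4 + Polynomial.X ^ 3 + Polynomial.X ^ 2 + Polynomial.X + 1 :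
        Polynomial M).degree = 4 := by compute_degree!
      rw [this]; norm_num
    obtain ⟨z, hz⟩ := IsAlgClosed.exists_root _ hd
    exact ⟨z, by simpa using hz⟩
  set v : M × M := (x, y) with hv
  set w : M × M := wv v (algebraMap F M s) with hw
  have hwH : kH w.1 w.2 = algebraMap F M a' := by
    rw [hw, ha', map_C4p, ← hH, ← hT]; exact kH_w x y _
  have hwT : kT w.1 w.2 = algebraMap F M b' := by
    rw [hw, hb', map_C6p, ← hH, ← hT]; exact kT_w x y _
  have hv1 : IsK (W⁄M) v := by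
    refine ⟨?_, ?_, ?_, ?_, ?_⟩
    · change algebraMap F M W.a₁ = 0; rw [hW.1, map_zero]
    · change algebraMap F M W.a₂ = 0; rw [hW.2.1, map_zero]
    · change algebraMap F M W.a₃ = 0; rw [hW.2.2.1, map_zero]
    · change algebraMap F M W.a₄ = _; rw [hW.2.2.2.1, map_mul, map_neg, map_ofNat, ← hH]
    · change algebraMap F M W.a₆ = _; rw [hW.2.2.2.2, map_mul, map_ofNat, ← hT]
  have hw1 : IsK (W'⁄M) w := by
    refine ⟨?_, ?_, ?_, ?_, ?_⟩
    · change algebraMap F M W'.a₁ = 0; rw [hW'.1, map_zero]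
    · change algebraMap F M W'.a₂ = 0; rw [hW'.2.1, map_zero]
    · change algebraMap F M W'.a₃ = 0; rw [hW'.2.2.1, map_zero]
    · change algebraMap F M W'.a₄ = _; rw [hW'.2.2.2.1, map_mul, map_neg, map_ofNat, ← hwH]
    · change algebraMap F M W'.a₆ = _; rw [hW'.2.2.2.2, map_mul, map_ofNat, ← hwT]
  have hv2 := frv_isK hv1 hH hT
  have hw2 := frv_isK hw1 hwH hwT
  obtain ⟨g, a0, b0, c0, d0, hg, hvg⟩ := exists_good m5 hz m2 m3 hv1 hv2
  have hwg : frv F w = g w := by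
    rw [hw, frv_wv, hvg, hg.hw]
  have hgv : IsK (W⁄M) (g v) := hg.isK hv1
  have hgw : IsK (W'⁄M) (g w) := hg.isK hw1
  have P1 : frobPt W (PP hv1) = a0 • PP hv1 + b0 • QP m5 hz hv1 := by
    rw [frobPt_PP hv1 hv2, PP_vcongr hvg hgv hv2, hg.hP _ v hv1 hgv]
  have Q1 : frobPt W (QP m5 hz hv1) = ((Fintype.card F : ℤ) * c0) • PP hv1 +
      ((Fintype.card F : ℤ) * d0) • QP m5 hz hv1 := by
    rw [frobPt_QP m5 hz hq5 hv1 hv2, QP_vcongr m5 hz hvg hgv hv2, hg.hQ _ v hv1 hgv]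
    module
  have P2 : frobPt W' (PP hw1) = a0 • PP hw1 + b0 • QP m5 hz hw1 := by
    rw [frobPt_PP hw1 hw2, PP_vcongr hwg hgw hw2, hg.hP _ w hw1 hgw]
  have Q2 : frobPt W' (QP m5 hz hw1) = ((Fintype.card F : ℤ) * c0) • PP hw1 +
      ((Fintype.card F : ℤ) * d0) • QP m5 hz hw1 := by
    rw [frobPt_QP m5 hz hq5 hw1 hw2, QP_vcongr m5 hz hwg hgw hw2, hg.hQ _ w hw1 hgw]
    module
  have ch1 := frobenius_char_eq_of_odd W hW.1 hW.2.2.1 h2 (M := M) (m := 5) (by decide)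
    (QP m5 hz hv1) (five_QP m5 hz hv1)
  have ch2 := frobenius_char_eq_of_odd W' hW'.1 hW'.2.2.1 h2 (M := M) (m := 5) (by decide)
    (QP m5 hz hw1) (five_QP m5 hz hw1)
  have hne : ¬ ((5 : ℤ) ∣ (Fintype.card F : ℤ) * c0 ∧ (5 : ℤ) ∣ (Fintype.card F : ℤ) * d0) := by
    rintro ⟨⟨r, hr⟩, ⟨r', hr'⟩⟩
    have e : frobPt W (QP m5 hz hv1) = 0 := by
      rw [Q1, hr, hr', mul_comm, mul_zsmul, five_PP m5 hz hv1, mul_comm, mul_zsmul,
        five_QP m5 hz hv1, zsmul_zero, zsmul_zero, add_zero]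
    obtain ⟨h', e'⟩ := frobPt_some (L := M) W (nonsing_Q m5 hz hv1)
    rw [QP, e'] at e
    exact Affine.Point.some_ne_zero _ e
  have := trace_congr (frobPt W) (frobPt W') P1 Q1 P2 Q2 (fun m n e => indep m5 hz hv1 e)
    (fun m n e => indep m5 hz hw1 e) ch1 ch2 hne
  have e : (Nat.card W.Point : ℤ) - Nat.card W'.Point =
    -(((Fintype.card F : ℤ) + 1 - (Nat.card W.Point : ℤ)) -
      ((Fintype.card F : ℤ) + 1 - (Nat.card W'.Point : ℤ))) := by ring
  rw [e]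
  exact (dvd_neg).mpr this

end frob

end Fermat.Agent.S52
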