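import Mathlib
import Fermat.Agent.S52.Count3

set_option autoImplicit false

/-!
# Interface lemma (I3)
-/

namespace Fermat.Agent.S52

open WeierstrassCurve

lemma shortE_Δ {R : Type*} [CommRing R] (a b : R) :
    (shortE a b).Δ = 2 ^ 6 * 3 ^ 9 * (a ^ 3 - b ^ 2) := by
  simp only [shortE, Δ, b₂, b₄, b₆, b₈]; ring

lemma shortE_isElliptic {F : Type*} [Field F] (h2 : (2 : F) ≠ 0) (h3 : (3 : F) ≠ 0) {a b : F}
    (hab : a ^ 3 ≠ b ^ 2) : (shortE a b).IsElliptic := by
  rw [isElliptic_iff, shortE_Δ, isUnit_iff_ne_zero]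
  exact mul_ne_zero (mul_ne_zero (pow_ne_zero _ h2) (pow_ne_zero _ h3)) (sub_ne_zero.mpr hab)

/-- (I3) over a finite field -/
theorem I3_gen {F : Type*} [Field F] [Finite F] (h30 : (30 : F) ≠ 0) {a b t : F}
    (hab : a ^ 3 ≠ b ^ 2) (hD : Dp a b t ≠ 0) :
    (5 : ℤ) ∣ (Nat.card (shortE a b).toAffine.Point : ℤ) -
      Nat.card (shortE (C4p a b t) (C6p a b t)).toAffine.Point := by
  have := Fintype.ofFinite F
  have h2 : (2 : F) ≠ 0 := fun h => h30 (by rw [show (30 : F) = 2 * 15 by norm_num, h, zero_mul])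
  have h3 : (3 : F) ≠ 0 := fun h => h30 (by rw [show (30 : F) = 3 * 10 by norm_num, h, zero_mul])
  have h5 : (5 : F) ≠ 0 := fun h => h30 (by rw [show (30 : F) = 5 * 6 by norm_num, h, zero_mul])
  have hab' : (C4p a b t) ^ 3 ≠ (C6p a b t) ^ 2 := by
    intro h
    have e := I1 a b t
    rw [h, sub_self] at e
    rcases mul_eq_zero.mp e.symm with h | h
    · exact hab (sub_eq_zero.mp h)
    · exact hD ((pow_eq_zero_iff (by norm_num)).mp h)
  have := shortE_isElliptic h2 h3 hab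
  have := shortE_isElliptic h2 h3 hab'
  exact count_congr h2 h3 h5 (shortE a b) (shortE (C4p a b t) (C6p a b t)) (a := a) (b := -b)
    (a' := C4p a b t) (b' := -C6p a b t) (s := -t)
    ⟨rfl, rfl, rfl, rfl, by simp only [shortE]; ring⟩
    ⟨rfl, rfl, rfl, rfl, by simp only [shortE]; ring⟩
    (by rwa [neg_sq]) (C4p_parity a b t).symm (C6p_parity a b t).symm

/-- (I3) over a prime field -/
theorem I3 {l : ℕ} [Fact l.Prime] (h30 : ¬ l ∣ 30) {a b t : ZMod l} (hab : a ^ 3 ≠ b ^ 2)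
    (hD : Dp a b t ≠ 0) :
    (5 : ℤ) ∣ (Nat.card (shortE a b).toAffine.Point : ℤ) -
      Nat.card (shortE (C4p a b t) (C6p a b t)).toAffine.Point := by
  apply I3_gen _ hab hD
  intro h
  apply h30
  rw [← CharP.cast_eq_zero_iff (ZMod l) l]
  exact_mod_cast h

end Fermat.Agent.S52
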